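/-
helper10 — programme MW (S17), brick NC-B1: the scheme-level integrality bound (Mathlib-only AG).

`π : W ⟶ T` universally closed, `T` affine, `Γ(T, ⊤)` generated over `Ω` by finitely many `c k`.
For a global function `z` on `W` there are constants `D, C` such that for every `Ω`-point `w`
of `W`:  `h(z(w)) ≤ D * h(1 : c_k(π w)) + C`.

Proof: `Γ(W, ⊤)` is integral over `Γ(T, ⊤)` (Mathlib `isIntegral_appTop_of_universallyClosed`),
evaluate the integrality equation at `w`, apply `IntegralBound10`.
-/
import Fermat.Agent.MW.IntegralBound10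
import Mathlib.AlgebraicGeometry.Morphisms.Proper
import Mathlib.AlgebraicGeometry.Stalk

set_option autoImplicit false

universe u

open CategoryTheory AlgebraicGeometry Polynomial

namespace Fermat.Agent.MW.NorthB10

open Fermat.Agent.MW.AbsHeightDef10 Fermat.Agent.MW.AbsHeightOne10 Fermat.Agent.MW.AffinePoly10
  Fermat.Agent.MW.IntegralBound10

variable {E : Type u} [Field E]

/-- The value of a global section at an `E`-point `v : Spec E ⟶ X`, as a ring homomorphism. -/
noncomputable def secVal {X : Scheme.{u}} (v : Spec (CommRingCat.of E) ⟶ X) : Γ(X, ⊤) →+* E :=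
  (Scheme.ΓSpecIso (CommRingCat.of E)).hom.hom.comp v.appTop.hom

theorem secVal_comp {X Y : Scheme.{u}} (v : Spec (CommRingCat.of E) ⟶ X) (f : X ⟶ Y)
    (a : Γ(Y, ⊤)) : secVal (v ≫ f) a = secVal v (f.appTop.hom a) := by
  simp [secVal]

section Core

variable [CharZero E] [Algebra.IsAlgebraic ℚ E]

/-- `IntegralBound10.exists_const_absLogHeightOne_le_of_monic_polyRelation` without the
assumption `1 ≤ n` (for `n = 0` the relation reads `1 = 0`). -/
theorem exists_const_of_monic_polyRelation {ι : Type*} [Finite ι] (n : ℕ)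
    (G : Fin n → MvPolynomial ι E) :
    ∃ (D : ℕ) (C : ℝ), ∀ (y : ι → E) (z : E),
      z ^ n + ∑ i : Fin n, (G i).eval y * z ^ (i : ℕ) = 0 →
        absLogHeightOne z ≤ D * absLogHeight (aff y) + C := by
  rcases n with _ | n
  · exact ⟨0, 0, fun y z h => absurd h (by simp)⟩
  · exact exists_const_absLogHeightOne_le_of_monic_polyRelation (n + 1) (Nat.succ_pos n) G

variable {W T : Scheme.{u}}

/-- **NC-B1, ring-level form.**  `ρ : E →+* Γ(T, ⊤)` is the structure map; the `c k` generate
`Γ(T, ⊤)` over it; `E`-points `w` of `W` are required to be compatible with `ρ`. -/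
theorem exists_const_absLogHeightOne_secVal_le (π : W ⟶ T) [UniversallyClosed π] [IsAffine T]
    (ρ : E →+* Γ(T, ⊤)) {κ : Type*} [Finite κ] (c : κ → Γ(T, ⊤))
    (hgen : ∀ a : Γ(T, ⊤), ∃ G : MvPolynomial κ E, MvPolynomial.eval₂ ρ c G = a)
    (z : Γ(W, ⊤)) :
    ∃ (D : ℕ) (C : ℝ), ∀ w : Spec (CommRingCat.of E) ⟶ W,
      (∀ a : E, secVal (w ≫ π) (ρ a) = a) →
        absLogHeightOne (secVal w z) ≤
          D * absLogHeight (aff fun k => secVal (w ≫ π) (c k)) + C := by
  have hint : π.appTop.hom.IsIntegral := isIntegral_appTop_of_universallyClosed π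
  obtain ⟨p, hp, hpz⟩ := hint z
  set n := p.natDegree with hn
  choose G hG using fun i : Fin n => hgen (p.coeff i)
  obtain ⟨D, C, hDC⟩ := exists_const_of_monic_polyRelation n G
  refine ⟨D, C, fun w hw => hDC _ _ ?_⟩
  -- evaluate the integrality equation at `w`
  have h1 := congrArg (secVal w) hpz
  rw [map_zero, eval₂_eq_sum_range, map_sum, Finset.sum_range_succ, ← hn] at h1
  simp only [map_mul, map_pow] at h1
  rw [hn, hp.coeff_natDegree, map_one, map_one, one_mul, ← hn, add_comm] at h1
  rw [← h1]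
  congr 1
  rw [← Fin.sum_univ_eq_sum_range (fun i => secVal w (π.appTop.hom (p.coeff i)) *
    secVal w z ^ i) n]
  refine Finset.sum_congr rfl fun i _ => ?_
  congr 1
  rw [← secVal_comp, ← hG i, MvPolynomial.eval₂_comp_left (secVal (w ≫ π)) ρ c (G i)]
  have hid : (secVal (w ≫ π)).comp ρ = RingHom.id E := RingHom.ext hw
  rw [hid]
  rfl

end Core

section Over

variable [CharZero E] [Algebra.IsAlgebraic ℚ E]
variable {W T : Scheme.{u}}

/-- The structure map `E → Γ(T, ⊤)` of a scheme over `Spec E`. -/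
noncomputable def structMap (fT : T ⟶ Spec (CommRingCat.of E)) : E →+* Γ(T, ⊤) :=
  fT.appTop.hom.comp (Scheme.ΓSpecIso (CommRingCat.of E)).inv.hom

omit [CharZero E] [Algebra.IsAlgebraic ℚ E] in
theorem secVal_structMap (fT : T ⟶ Spec (CommRingCat.of E))
    (v : Spec (CommRingCat.of E) ⟶ T) (hv : v ≫ fT = 𝟙 _) (a : E) :
    secVal v (structMap fT a) = a := by
  have h := secVal_comp v fT ((Scheme.ΓSpecIso (CommRingCat.of E)).inv.hom a)
  rw [hv] at h
  rw [structMap, RingHom.comp_apply, ← h]
  simp [secVal]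

/-- **NC-B1, scheme form.** `T` affine over `Spec E`, `Γ(T, ⊤)` generated by the `c k`;
`π : W ⟶ T` universally closed; `z` a global function on `W`.  Then
`h(z(w)) ≤ D * h(1 : c_k(π w)) + C` for all `E`-points `w` of `W` over `E`. -/
theorem exists_const_absLogHeightOne_secVal_le_of_over (π : W ⟶ T) [UniversallyClosed π]
    [IsAffine T] (fT : T ⟶ Spec (CommRingCat.of E)) {κ : Type*} [Finite κ] (c : κ → Γ(T, ⊤))
    (hgen : ∀ a : Γ(T, ⊤), ∃ G : MvPolynomial κ E, MvPolynomial.eval₂ (structMap fT) c G = a)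
    (z : Γ(W, ⊤)) :
    ∃ (D : ℕ) (C : ℝ), ∀ w : Spec (CommRingCat.of E) ⟶ W, w ≫ π ≫ fT = 𝟙 _ →
      absLogHeightOne (secVal w z) ≤
        D * absLogHeight (aff fun k => secVal (w ≫ π) (c k)) + C := by
  obtain ⟨D, C, h⟩ := exists_const_absLogHeightOne_secVal_le π (structMap fT) c hgen z
  exact ⟨D, C, fun w hw => h w fun a => secVal_structMap fT (w ≫ π)
    (by rw [Category.assoc]; exact hw) a⟩

end Over

section Compare

/-- Comparison with evaluation of germs (`HM73.sectionEv v = (Scheme.stalkClosedPointTo v).hom`):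
the value of a global section is the value of its germ at the image of the closed point. -/
theorem secVal_eq_stalkClosedPointTo {X : Scheme.{u}} (v : Spec (CommRingCat.of E) ⟶ X)
    (g : Γ(X, ⊤)) :
    secVal v g = (Scheme.stalkClosedPointTo v).hom
      ((X.presheaf.germ ⊤ (v (IsLocalRing.closedPoint E)) trivial).hom g) := by
  have h := Scheme.germ_stalkClosedPointTo v ⊤ trivial
  have h2 := congrArg (fun φ => φ.hom g) h
  simp only [CommRingCat.hom_comp, RingHom.comp_apply] at h2
  rw [h2]
  simp [secVal]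
  rfl

end Compare

end Fermat.Agent.MW.NorthB10
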