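/-
helper10 — programme MW (S17), brick NC-B2 (a): values of sections on opens at field-valued points,
and the opens form of the integrality bound NC-B1.

* `germVal v U hU : Γ(X, U) →+* E` : the value at the `E`-point `v : Spec E ⟶ X` (landing in `U`)
  of a section over `U`; restriction, functoriality (`germVal_comp`), `germVal_top = secVal`.
* `exists_const_of_isIntegralElem` : the algebraic core of NC-B1.
* `isIntegral_app_of_universallyClosed` : for `σ : X ⟶ V` universally closed and `T` an affine
  open of `V`, `Γ(X, σ⁻¹ T)` is integral over `Γ(V, T)`.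
* `exists_const_absLogHeightOne_germVal_le` : NC-B1 over an affine open `T` of the target.
-/
import Fermat.Agent.MW.NorthB10.AffineBound
import Mathlib.AlgebraicGeometry.Restrict

set_option autoImplicit false

universe u

open CategoryTheory AlgebraicGeometry Polynomial

namespace Fermat.Agent.MW.NorthB10

open Fermat.Agent.MW.AbsHeightDef10 Fermat.Agent.MW.AbsHeightOne10 Fermat.Agent.MW.AffinePoly10
  Fermat.Agent.MW.IntegralBound10

variable {E : Type u} [Field E]

section Alg

variable [CharZero E] [Algebra.IsAlgebraic ℚ E]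

/-- **Algebraic core of NC-B1.** `z : B` integral over `A` (via `φ`), `A` generated over `E`
(via `ρ`) by the finite family `c`.  Then the height of the value of `z` at an `E`-point `β` of
`B` is bounded linearly by the height of the values of the `c k` at the induced point of `A`. -/
theorem exists_const_of_isIntegralElem {A B : Type*} [CommRing A] [CommRing B] (φ : A →+* B)
    (ρ : E →+* A) {κ : Type*} [Finite κ] (c : κ → A)
    (hgen : ∀ a : A, ∃ G : MvPolynomial κ E, MvPolynomial.eval₂ ρ c G = a)
    (z : B) (hz : φ.IsIntegralElem z) :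
    ∃ (D : ℕ) (C : ℝ), ∀ (α : A →+* E) (β : B →+* E), β.comp φ = α → (∀ a, α (ρ a) = a) →
      absLogHeightOne (β z) ≤ D * absLogHeight (aff fun k => α (c k)) + C := by
  obtain ⟨p, hp, hpz⟩ := hz
  set n := p.natDegree with hn
  choose G hG using fun i : Fin n => hgen (p.coeff i)
  obtain ⟨D, C, hDC⟩ := exists_const_of_monic_polyRelation n G
  refine ⟨D, C, fun α β hβ hα => hDC _ _ ?_⟩
  have h1 := congrArg β hpz
  rw [map_zero, eval₂_eq_sum_range, map_sum, Finset.sum_range_succ, ← hn] at h1
  simp only [map_mul, map_pow] at h1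
  rw [hn, hp.coeff_natDegree, map_one, map_one, one_mul, ← hn, add_comm] at h1
  rw [← h1]
  congr 1
  rw [← Fin.sum_univ_eq_sum_range (fun i => β (φ (p.coeff i)) * β z ^ i) n]
  refine Finset.sum_congr rfl fun i _ => ?_
  congr 1
  have e1 : β (φ (p.coeff i)) = α (p.coeff i) := by rw [← hβ]; rfl
  rw [e1, ← hG i, MvPolynomial.eval₂_comp_left α ρ c (G i)]
  have hid : α.comp ρ = RingHom.id E := RingHom.ext hα
  rw [hid]
  rfl

end Alg

section GermVal

variable {X Y : Scheme.{u}}

/-- The value at an `E`-point `v` (landing in the open `U`) of a section over `U`. -/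
noncomputable def germVal (v : Spec (CommRingCat.of E) ⟶ X) (U : X.Opens)
    (hU : v (IsLocalRing.closedPoint E) ∈ U) : Γ(X, U) →+* E :=
  (Scheme.stalkClosedPointTo v).hom.comp (X.presheaf.germ U _ hU).hom

theorem germVal_apply (v : Spec (CommRingCat.of E) ⟶ X) (U : X.Opens)
    (hU : v (IsLocalRing.closedPoint E) ∈ U) (a : Γ(X, U)) :
    germVal v U hU a = (Scheme.stalkClosedPointTo v).hom ((X.presheaf.germ U _ hU).hom a) := rfl

theorem germVal_top (v : Spec (CommRingCat.of E) ⟶ X) (a : Γ(X, ⊤)) :
    germVal v ⊤ trivial a = secVal v a :=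
  (secVal_eq_stalkClosedPointTo v a).symm

theorem germVal_res (v : Spec (CommRingCat.of E) ⟶ X) {U U' : X.Opens} (h : U' ≤ U)
    (hU' : v (IsLocalRing.closedPoint E) ∈ U') (a : Γ(X, U)) :
    germVal v U' hU' ((X.presheaf.map (homOfLE h).op).hom a) = germVal v U (h hU') a := by
  rw [germVal_apply, germVal_apply]
  congr 1
  exact TopCat.Presheaf.germ_res_apply X.presheaf (homOfLE h) _ hU' a

set_option backward.isDefEq.respectTransparency.types false in
theorem germVal_comp (v : Spec (CommRingCat.of E) ⟶ X) (g : X ⟶ Y) (U : Y.Opens)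
    (hU : (v ≫ g) (IsLocalRing.closedPoint E) ∈ U) (a : Γ(Y, U)) :
    germVal (v ≫ g) U hU a = germVal v (g ⁻¹ᵁ U) hU ((g.app U).hom a) := by
  rw [germVal_apply, germVal_apply]
  have h1 := Scheme.stalkClosedPointTo_comp v g
  have h2 := Scheme.Hom.germ_stalkMap g U (v (IsLocalRing.closedPoint E)) hU
  have h3 := congrArg (fun φ => φ.hom a) h2
  simp only [CommRingCat.hom_comp, RingHom.comp_apply] at h3
  rw [← h3]
  have h4 := congrArg (fun φ => φ.hom ((Y.presheaf.germ U _ hU).hom a)) h1
  exact h4

end GermVal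

section Integral

variable {X V : Scheme.{u}}

/-- For `σ : X ⟶ V` universally closed and `T` an affine open of `V`, `Γ(X, σ⁻¹ T)` is integral
over `Γ(V, T)`. -/
theorem isIntegral_app_of_universallyClosed (σ : X ⟶ V) [UniversallyClosed σ] (T : V.Opens)
    (hT : IsAffineOpen T) : (σ.app T).hom.IsIntegral := by
  have : IsAffine T.toScheme := hT
  have h0 : (σ.app (T.ι ''ᵁ ⊤) ≫
      X.presheaf.map (eqToHom (image_morphismRestrict_preimage σ T ⊤)).op).hom.IsIntegral := by
    have h := isIntegral_appTop_of_universallyClosed (σ ∣_ T)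
    rw [morphismRestrict_appTop] at h
    exact h
  have e : T.ι ''ᵁ ⊤ = T := Scheme.Opens.ι_image_top T
  rw [Scheme.Hom.app_eq σ e.symm]
  rw [CommRingCat.hom_comp, RingHom.isIntegral_respectsIso.cancel_left_isIso]
  rw [CommRingCat.hom_comp, RingHom.isIntegral_respectsIso.cancel_right_isIso] at h0 ⊢
  exact h0

end Integral

section Bound

variable [CharZero E] [Algebra.IsAlgebraic ℚ E]
variable {X V : Scheme.{u}}

/-- **NC-B1 over an affine open of the target.** `σ : X ⟶ V` universally closed, `T` an affine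
open of `V` with `Γ(V, T)` generated over `E` (via `ρ`) by finitely many `c k`; `z` a function on
`σ⁻¹ T`.  Then `h(z(w)) ≤ D * h(1 : c_k(σ w)) + C` for all `E`-points `w` of `X` with
`σ w ∈ T`. -/
theorem exists_const_absLogHeightOne_germVal_le (σ : X ⟶ V) [UniversallyClosed σ] (T : V.Opens)
    (hT : IsAffineOpen T) (ρ : E →+* Γ(V, T)) {κ : Type*} [Finite κ] (c : κ → Γ(V, T))
    (hgen : ∀ a : Γ(V, T), ∃ G : MvPolynomial κ E, MvPolynomial.eval₂ ρ c G = a)
    (z : Γ(X, σ ⁻¹ᵁ T)) :
    ∃ (D : ℕ) (C : ℝ), ∀ (w : Spec (CommRingCat.of E) ⟶ X)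
      (hw : (w ≫ σ) (IsLocalRing.closedPoint E) ∈ T),
      (∀ a : E, germVal (w ≫ σ) T hw (ρ a) = a) →
        absLogHeightOne (germVal w (σ ⁻¹ᵁ T) hw z) ≤
          D * absLogHeight (aff fun k => germVal (w ≫ σ) T hw (c k)) + C := by
  obtain ⟨D, C, h⟩ := exists_const_of_isIntegralElem (σ.app T).hom ρ c hgen z
    (isIntegral_app_of_universallyClosed σ T hT z)
  refine ⟨D, C, fun w hw hρ => h (germVal (w ≫ σ) T hw) (germVal w (σ ⁻¹ᵁ T) hw) ?_ hρ⟩
  ext a
  exact (germVal_comp w σ T hw a).symm

end Bound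

end Fermat.Agent.MW.NorthB10
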