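/-
helper10 — programme MW (S17), brick NC-B2 (b),(c): "good pieces" for the scheme-level bound.

Setting: `V` integral over `Ω` (`f : V ⟶ Spec Ω`), `s` a finite family of rational functions,
`hgt f s` its height on `Ω`-points (`HM73`).

* `structMapOn f T : Ω →+* Γ(V, T)`, `germVal_structMapOn`.
* `ev_germToFunctionField` : bridge `HM73.evalPtOfSection … .ev ⟨germToFunctionField T a, _⟩
  = germVal x T hx a`.
* `HtBounded f s T` : every finite family of regular functions on the open `T` has affine height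
  `≤ C * hgt f s x + C'` on the `Ω`-points of `T`.  `HtBounded.bound` (any finite index type,
  slope `≥ 0`), `HtBounded.of_generators` (one generating family suffices),
  `HtBounded.basicOpen` (basic opens of an affine open), `HtBounded.preimage_of_isIso`
  (automorphisms changing `hgt` at most linearly, e.g. translations).
* `exists_generators_of_locallyOfFiniteType`.
* `exists_const_absLogHeightOne_le_hgt` : **one good piece**: `σ : X ⟶ V` universally closed,
  `T` affine open with `HtBounded f s T`, `z ∈ Γ(X, σ⁻¹ T)` ⟹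
  `h(z(w)) ≤ D * hgt f s (σ w) + C` for the `Ω`-points `w` of `X` with `σ w ∈ T`.
-/
import Fermat.Agent.MW.NorthB10.GermVal
import Fermat.Agent.MW.HM73.Quad
import Mathlib.AlgebraicGeometry.Morphisms.FiniteType

set_option autoImplicit false
set_option linter.unusedSectionVars false
set_option linter.style.haveILetI false

universe u

open CategoryTheory AlgebraicGeometry

namespace Fermat.Agent.MW.NorthB10

open Fermat.Agent.MW.AbsHeightDef10 Fermat.Agent.MW.AbsHeightOne10 Fermat.Agent.MW.AffinePoly10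
  Fermat.Agent.MW.HM73

variable {Ω : Type u} [Field Ω] {V : Scheme.{u}}
  (f : V ⟶ Spec (CommRingCat.of Ω))

section StructMap

/-- The structure map `Ω → Γ(V, T)`. -/
noncomputable def structMapOn (T : V.Opens) : Ω →+* Γ(V, T) :=
  (f.appLE ⊤ T le_top).hom.comp (Scheme.ΓSpecIso (CommRingCat.of Ω)).inv.hom

theorem structMapOn_eq (T : V.Opens) (a : Ω) :
    structMapOn f T a = (V.presheaf.map (homOfLE (le_top : T ≤ ⊤)).op).hom (structMap f a) := by
  rfl

theorem germVal_structMapOn (T : V.Opens) (v : Spec (CommRingCat.of Ω) ⟶ V) (hv : v ≫ f = 𝟙 _)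
    (hT : v (IsLocalRing.closedPoint Ω) ∈ T) (a : Ω) :
    germVal v T hT (structMapOn f T a) = a := by
  rw [structMapOn_eq, germVal_res v le_top hT, germVal_top, secVal_structMap f v hv]

end StructMap

section Bridge

variable [IsIntegral V]

theorem germToFunctionField_mem_stalkSubring (T : V.Opens) [Nonempty T] (x : V) (hx : x ∈ T)
    (a : Γ(V, T)) : V.germToFunctionField T a ∈ stalkSubring x :=
  ⟨V.presheaf.germ T x hx a, Scheme.algebraMap_germ_eq_germToFunctionField (X := V) hx a⟩

/-- Evaluation (in the sense of `HM73.evalPtOfSection`) of a rational function which is a section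
over an open `T` containing the point is `germVal`. -/
theorem ev_germToFunctionField (x : Pt f) (T : V.Opens) [Nonempty T]
    (hx : x.1 (IsLocalRing.closedPoint Ω) ∈ T) (a : Γ(V, T)) :
    letI := ffAlgebra f
    (evalPtOfSection f x.1 x.2).ev ⟨V.germToFunctionField T a,
      germToFunctionField_mem_stalkSubring T _ hx a⟩ = germVal x.1 T hx a := by
  letI := ffAlgebra f
  have h := evalPtOfSection_ev_algebraMap f x.1 x.2 (V.presheaf.germ T _ hx a)
  rw [germVal_apply]
  refine Eq.trans ?_ h
  congr 1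
  exact Subtype.ext (Scheme.algebraMap_germ_eq_germToFunctionField (X := V) hx a).symm

end Bridge

section HtBounded

variable [IsIntegral V] [CharZero Ω] [Algebra.IsAlgebraic ℚ Ω] {ι : Type*} [Finite ι]
  (s : ι → V.functionField)

/-- Every finite family of regular functions on the open `T` has (affine) height bounded linearly
by the height `hgt f s` on the `Ω`-points of `T`. -/
def HtBounded (T : V.Opens) : Prop :=
  ∀ (n : ℕ) (c : Fin n → Γ(V, T)), ∃ C C' : ℝ, ∀ (x : Pt f)
    (hx : x.1 (IsLocalRing.closedPoint Ω) ∈ T),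
    absLogHeight (aff fun k => germVal x.1 T hx (c k)) ≤ C * hgt f s x + C'

variable {f s}

theorem aff_comp_equiv {α β : Type*} (e : α ≃ β) (y : β → Ω) :
    aff (y ∘ e) = aff y ∘ (Equiv.optionCongr e) := by
  funext o
  cases o <;> rfl

/-- The bound for a family indexed by an arbitrary finite type, with nonnegative slope. -/
theorem HtBounded.bound {T : V.Opens} (h : HtBounded f s T) {κ : Type*} [Finite κ]
    (c : κ → Γ(V, T)) : ∃ C C' : ℝ, 0 ≤ C ∧ ∀ (x : Pt f)
      (hx : x.1 (IsLocalRing.closedPoint Ω) ∈ T),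
      absLogHeight (aff fun k => germVal x.1 T hx (c k)) ≤ C * hgt f s x + C' := by
  obtain ⟨n, ⟨e⟩⟩ := Finite.exists_equiv_fin κ
  obtain ⟨C, C', hC⟩ := h n (c ∘ e.symm)
  refine ⟨max C 0, C', le_max_right _ _, fun x hx => ?_⟩
  have h1 := hC x hx
  have h2 : (aff fun k => germVal x.1 T hx (c k)) =
      (aff fun k => germVal x.1 T hx ((c ∘ e.symm) k)) ∘ (Equiv.optionCongr e) := by
    rw [← aff_comp_equiv]
    congr 1
    funext k
    simp
  rw [h2, absLogHeight_comp_equiv]
  have h3 : C * hgt f s x ≤ max C 0 * hgt f s x :=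
    mul_le_mul_of_nonneg_right (le_max_left _ _) (hgt_nonneg f s x)
  linarith

/-- It suffices to bound one generating family. -/
theorem HtBounded.of_generators (T : V.Opens) {κ : Type*} [Finite κ] (c : κ → Γ(V, T))
    (hgen : ∀ a : Γ(V, T), ∃ G : MvPolynomial κ Ω, MvPolynomial.eval₂ (structMapOn f T) c G = a)
    (hb : ∃ C C' : ℝ, ∀ (x : Pt f) (hx : x.1 (IsLocalRing.closedPoint Ω) ∈ T),
      absLogHeight (aff fun k => germVal x.1 T hx (c k)) ≤ C * hgt f s x + C') :
    HtBounded f s T := by
  intro n c'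
  obtain ⟨C, C', hC⟩ := hb
  choose G hG using fun k => hgen (c' k)
  obtain ⟨D, C₀, hD⟩ := exists_const_absLogHeight_aff_eval_le G
  refine ⟨D * C, D * C' + C₀, fun x hx => ?_⟩
  have h1 := hD (fun j => germVal x.1 T hx (c j))
  have h2 : (fun k => germVal x.1 T hx (c' k)) =
      fun k => (G k).eval (fun j => germVal x.1 T hx (c j)) := by
    funext k
    rw [← hG k, MvPolynomial.eval₂_comp_left (germVal x.1 T hx) (structMapOn f T) c (G k)]
    have hid : (germVal x.1 T hx).comp (structMapOn f T) = RingHom.id Ω :=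
      RingHom.ext fun a => germVal_structMapOn f T x.1 x.2 hx a
    rw [hid]
    rfl
  rw [h2]
  have h3 := hC x hx
  have hD0 : (0 : ℝ) ≤ D := Nat.cast_nonneg D
  nlinarith

end HtBounded

section Stability

variable [IsIntegral V] [CharZero Ω] [Algebra.IsAlgebraic ℚ Ω] {ι : Type*} [Finite ι]
  {s : ι → V.functionField} {f}

/-- `HtBounded` passes to basic opens of an affine open (one adds `1/φ` to the functions). -/
theorem HtBounded.basicOpen {T : V.Opens} (hT : IsAffineOpen T) (h : HtBounded f s T)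
    (φ : Γ(V, T)) : HtBounded f s (V.basicOpen φ) := by
  intro n c'
  have hloc : IsLocalization.Away φ Γ(V, V.basicOpen φ) := hT.isLocalization_basicOpen φ
  obtain ⟨⟨b, m, rfl⟩, hb⟩ := IsLocalization.exist_integer_multiples_of_finite
    (Submonoid.powers φ) c'
  choose a ha using hb
  -- the family `(φ, a_k)` on `T`
  let c'' : Option (Fin n) → Γ(V, T) := fun o => o.elim φ a
  obtain ⟨C, C', hC0, hC⟩ := h.bound c''
  let P : Option (Fin n) → MvPolynomial (Option (Fin n)) Ω :=
    fun o => o.elim (MvPolynomial.X none ^ m) (fun k => MvPolynomial.X (some k))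
  obtain ⟨D, C₀, hD⟩ := exists_const_absLogHeight_aff_eval_le P
  refine ⟨D * C, D * C' + C₀, fun x hx => ?_⟩
  have hxT : x.1 (IsLocalRing.closedPoint Ω) ∈ T := V.basicOpen_le φ hx
  set α := germVal x.1 T hxT with hα
  set β := germVal x.1 (V.basicOpen φ) hx with hβ
  have hres : ∀ r : Γ(V, T), β (algebraMap Γ(V, T) Γ(V, V.basicOpen φ) r) = α r := fun r =>
    germVal_res x.1 (V.basicOpen_le φ) hx r
  -- `α φ ≠ 0`
  have hunit : IsUnit (algebraMap Γ(V, T) Γ(V, V.basicOpen φ) φ) :=
    IsLocalization.Away.algebraMap_isUnit φ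
  have hv : α φ ≠ 0 := by
    rw [← hres]
    exact (hunit.map β).ne_zero
  have hvm : α φ ^ m ≠ 0 := pow_ne_zero m hv
  -- the scaled tuple
  have hk : ∀ k, α φ ^ m * β (c' k) = α (a k) := fun k => by
    have h1 := ha k
    have h2 : algebraMap Γ(V, T) Γ(V, V.basicOpen φ) (a k) =
        algebraMap Γ(V, T) Γ(V, V.basicOpen φ) (φ ^ m) * c' k := by
      rw [h1]
      exact Algebra.smul_def _ _
    have h3 := congrArg β h2
    rw [hres, map_mul, hres, map_pow] at h3
    exact h3.symm
  have e1 : (α φ ^ m) • (aff fun k => β (c' k)) =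
      (aff fun j => (P j).eval (fun o => α (c'' o))) ∘ some := by
    funext o
    cases o with
    | none => simp [P, c'']
    | some k => simp [P, c'', hk k]
  have h1 : absLogHeight (aff fun k => β (c' k)) ≤
      absLogHeight (aff fun j => (P j).eval (fun o => α (c'' o))) := by
    rw [← absLogHeight_smul _ hvm, e1]
    exact absLogHeight_comp_le _ _
  have h2 := hD (fun o => α (c'' o))
  have h3 := hC x hxT
  have hD0 : (0 : ℝ) ≤ D := Nat.cast_nonneg D
  nlinarith

/-- `HtBounded` is transported by an automorphism `g` of `V` over `Ω` which changes the height at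
most linearly (e.g. a translation, by the theorem of the square). -/
theorem HtBounded.preimage_of_isIso {T : V.Opens} (h : HtBounded f s T) (g : V ⟶ V) [IsIso g]
    (hg : g ≫ f = f) (A B : ℝ)
    (hAB : ∀ x : Pt f, hgt f s (ptMap f g hg x) ≤ A * hgt f s x + B) :
    HtBounded f s (g ⁻¹ᵁ T) := by
  intro n c'
  let c : Fin n → Γ(V, T) := fun k => (inv (g.app T)).hom (c' k)
  have hc : ∀ k, (g.app T).hom (c k) = c' k := fun k => by
    show ((inv (g.app T)) ≫ g.app T).hom (c' k) = c' k
    rw [IsIso.inv_hom_id]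
    rfl
  obtain ⟨C, C', hC0, hC⟩ := h.bound c
  refine ⟨C * A, C * B + C', fun x hx => ?_⟩
  have hx' : (ptMap f g hg x).1 (IsLocalRing.closedPoint Ω) ∈ T := hx
  have h1 := hC (ptMap f g hg x) hx'
  have h2 : (fun k => germVal x.1 (g ⁻¹ᵁ T) hx (c' k)) =
      fun k => germVal (ptMap f g hg x).1 T hx' (c k) := by
    funext k
    rw [← hc k]
    exact (germVal_comp x.1 g T hx' (c k)).symm
  rw [h2]
  have h3 := hAB x
  nlinarith

end Stability

section Piece

variable [IsIntegral V] [CharZero Ω] [Algebra.IsAlgebraic ℚ Ω] {ι : Type*} [Finite ι]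
  {s : ι → V.functionField} {f} {X : Scheme.{u}}

/-- Over a base field, the sections over an affine open of a scheme locally of finite type are
generated by finitely many of them. -/
theorem exists_generators_of_locallyOfFiniteType [LocallyOfFiniteType f] {T : V.Opens}
    (hT : IsAffineOpen T) :
    ∃ (n : ℕ) (c : Fin n → Γ(V, T)), ∀ a : Γ(V, T), ∃ G : MvPolynomial (Fin n) Ω,
      MvPolynomial.eval₂ (structMapOn f T) c G = a := by
  have h1 : (f.appLE ⊤ T le_top).hom.FiniteType :=
    f.finiteType_appLE (isAffineOpen_top _) hT _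
  have h2 : (structMapOn f T).FiniteType := by
    refine RingHom.FiniteType.comp h1 (RingHom.FiniteType.of_surjective _ ?_)
    exact ((Scheme.ΓSpecIso (CommRingCat.of Ω)).symm.commRingCatIsoToRingEquiv).surjective
  letI : Algebra Ω Γ(V, T) := (structMapOn f T).toAlgebra
  have h3 : Algebra.FiniteType Ω Γ(V, T) := h2
  obtain ⟨n, F, hF⟩ := Algebra.FiniteType.iff_quotient_mvPolynomial''.mp h3
  refine ⟨n, fun k => F (MvPolynomial.X k), fun a => ?_⟩
  obtain ⟨G, rfl⟩ := hF a
  refine ⟨G, ?_⟩
  have h4 : F = MvPolynomial.aeval (fun k => F (MvPolynomial.X k)) := by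
    apply MvPolynomial.algHom_ext
    intro k
    simp
  conv_rhs => rw [h4]
  rfl

/-- **NC-B, one good piece.** `σ : X ⟶ V` universally closed, `T` an affine open of `V` on which
regular functions have height bounded by `hgt f s`, `z` a function on `σ⁻¹ T`.  Then the height
of `z(w)` is bounded linearly by `hgt f s (σ w)` for the `Ω`-points `w` of `X` with `σ w ∈ T`. -/
theorem exists_const_absLogHeightOne_le_hgt [LocallyOfFiniteType f] (σ : X ⟶ V)
    [UniversallyClosed σ] {T : V.Opens} (hT : IsAffineOpen T) (hb : HtBounded f s T)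
    (z : Γ(X, σ ⁻¹ᵁ T)) :
    ∃ D C : ℝ, 0 ≤ D ∧ ∀ (w : Spec (CommRingCat.of Ω) ⟶ X) (hw : (w ≫ σ) ≫ f = 𝟙 _)
      (hwT : (w ≫ σ) (IsLocalRing.closedPoint Ω) ∈ T),
      absLogHeightOne (germVal w (σ ⁻¹ᵁ T) hwT z) ≤ D * hgt f s ⟨w ≫ σ, hw⟩ + C := by
  obtain ⟨n, c, hgen⟩ := exists_generators_of_locallyOfFiniteType (f := f) hT
  obtain ⟨D₁, C₁, h1⟩ := exists_const_absLogHeightOne_germVal_le σ T hT (structMapOn f T) c hgen z
  obtain ⟨C₂, C₂', hC0, h2⟩ := hb.bound c
  have hD0 : (0 : ℝ) ≤ D₁ := Nat.cast_nonneg D₁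
  refine ⟨D₁ * C₂, D₁ * C₂' + C₁, mul_nonneg hD0 hC0, fun w hw hwT => ?_⟩
  have h3 := h1 w hwT (fun a => germVal_structMapOn f T (w ≫ σ) hw hwT a)
  have h4 := h2 ⟨w ≫ σ, hw⟩ hwT
  nlinarith

end Piece

end Fermat.Agent.MW.NorthB10
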