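/-
helper10 — programme MW (S17), brick HM-AFF (statement of helper73's msg 4985) + adapter.

* `exists_const_absLogHeight_aff_ev_le` : **HM-AFF**.  `V` integral, universally closed over
  `Ω`; `s` a generating family (`SectionsOf s s`) with `s i0 = 1`; `c` a finite family of sections
  of the `k1`-th power of the sheaf generated by `s` (`SectionsOf (s^k1) c`).  Then
  `h(1 : c_l(x)) ≤ k1 * hgt f s x + C` at all `Ω`-points `x` where `s i0` generates.
  Proof: the families `s^k1 ⊔ c` and `s^k1` generate the same sheaf, key lemma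
  `HM73.exists_const_abs_famHeight_sub_le`, `famHeight_pow`, sub-tuple.
* `HtBounded.of_sectionsOf` : the same packaged as `HtBounded f s U` (`NorthB10/Piece.lean`) for an
  open `U` on which all `s j` are regular and generators `c` of `Γ(V, U)`.
-/
import Fermat.Agent.MW.NorthB10.Piece

set_option autoImplicit false
set_option linter.unusedSectionVars false
set_option linter.style.haveILetI false

universe u

open CategoryTheory AlgebraicGeometry

namespace Fermat.Agent.MW.NorthB10

open Fermat.Agent.MW.AbsHeightDef10 Fermat.Agent.MW.AbsHeightOne10 Fermat.Agent.MW.AffinePoly10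
  Fermat.Agent.MW.HM73

variable {Ω : Type u} [Field Ω] [CharZero Ω] [Algebra.IsAlgebraic ℚ Ω] {V : Scheme.{u}}
  [IsIntegral V] (f : V ⟶ Spec (CommRingCat.of Ω)) {ι κ : Type*} [Finite ι] [Finite κ]

section HMAff

/-- **HM-AFF.** `s` a generating family containing `1 = s i0`, `c` a finite family of sections of
the `k1`-th power of the sheaf generated by `s`.  At the `Ω`-points `x` where `s i0 = 1` generates
(so the `c l` are regular at `x`), `h(1 : c_l(x)) ≤ k1 * hgt f s x + C`. -/
theorem exists_const_absLogHeight_aff_ev_le [UniversallyClosed f] (s : ι → V.functionField)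
    (hs : SectionsOf s s) (i0 : ι) (hi0 : s i0 = 1) (k1 : ℕ) (c : κ → V.functionField)
    (hc : SectionsOf (fun i => s i ^ k1) c) :
    ∃ C : ℝ, ∀ x : Pt f,
      letI := ffAlgebra f
      GenAt (evalPtOfSection f x.1 x.2) s i0 →
      ∀ hcx : ∀ l, c l ∈ (evalPtOfSection f x.1 x.2).O,
        absLogHeight (aff fun l => (evalPtOfSection f x.1 x.2).ev ⟨c l, hcx l⟩) ≤
          k1 * hgt f s x + C := by
  letI := ffAlgebra f
  -- the enlarged family
  let s' : ι ⊕ κ → V.functionField := Sum.elim (fun i => s i ^ k1) c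
  have h1 : SectionsOf s' (fun i => s i ^ k1) := by
    intro y
    obtain ⟨i, hi, hgen⟩ := hs y
    refine ⟨Sum.inl i, pow_ne_zero k1 hi, fun j => ?_⟩
    show s j ^ k1 / s i ^ k1 ∈ stalkSubring y
    rw [← div_pow]
    exact (stalkSubring y).pow_mem (hgen j) k1
  have h2 : SectionsOf (fun i => s i ^ k1) s' := by
    intro y
    obtain ⟨i₁, hi₁, hgen⟩ := hs y
    obtain ⟨i₂, hi₂, hcy⟩ := hc y
    refine ⟨i₁, pow_ne_zero k1 hi₁, fun l => ?_⟩
    rcases l with j | l
    · show s j ^ k1 / s i₁ ^ k1 ∈ stalkSubring y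
      rw [← div_pow]
      exact (stalkSubring y).pow_mem (hgen j) k1
    · show c l / s i₁ ^ k1 ∈ stalkSubring y
      have e : c l / s i₁ ^ k1 = c l / s i₂ ^ k1 * (s i₂ / s i₁) ^ k1 := by
        rcases Nat.eq_zero_or_pos k1 with hk | hk
        · rw [hk]; simp
        · have hi₂' : s i₂ ≠ 0 := fun h0 => hi₂ (by
            show s i₂ ^ k1 = 0
            rw [h0, zero_pow hk.ne'])
          rw [div_pow]
          field_simp
      rw [e]
      exact (stalkSubring y).mul_mem (hcy l) ((stalkSubring y).pow_mem (hgen i₂) k1)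
  obtain ⟨C, hC⟩ := exists_const_abs_famHeight_sub_le f s' (fun i => s i ^ k1) h1 h2
  refine ⟨C, fun x hgen hcx => ?_⟩
  set p := evalPtOfSection f x.1 x.2 with hp
  have key := hC x.1 x.2
  have e1 : famHeight p (fun i => s i ^ k1) = k1 * hgt f s x :=
    famHeight_pow p s ⟨i0, hgen⟩ k1
  -- `inl i0` generates `s'` at `x`
  have hg' : GenAt p s' (Sum.inl i0) := by
    refine ⟨by show s i0 ^ k1 ≠ 0; rw [hi0, one_pow]; exact one_ne_zero, fun l => ?_⟩
    have e0 : s' (Sum.inl i0) = 1 := by show s i0 ^ k1 = 1; rw [hi0, one_pow]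
    rw [e0, div_one]
    rcases l with j | l
    · show s j ^ k1 ∈ p.O
      have := hgen.2 j
      rw [hi0, div_one] at this
      exact p.O.pow_mem this k1
    · exact hcx l
  have e2 : famHeight p s' = absLogHeight (valueVec p s' (Sum.inl i0) hg') :=
    famHeight_eq p s' _ hg'
  -- the sub-tuple `(1, c_l(x))`
  let emb : Option κ → ι ⊕ κ := fun o => o.elim (Sum.inl i0) Sum.inr
  have e3 : (aff fun l => p.ev ⟨c l, hcx l⟩) = valueVec p s' (Sum.inl i0) hg' ∘ emb := by
    funext o
    cases o with
    | none =>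
      show (1 : Ω) = valueVec p s' (Sum.inl i0) hg' (Sum.inl i0)
      rw [valueVec_self]
    | some l =>
      show p.ev ⟨c l, hcx l⟩ = p.ev ⟨s' (Sum.inr l) / s' (Sum.inl i0), _⟩
      congr 1
      apply Subtype.ext
      show c l = c l / s i0 ^ k1
      rw [hi0, one_pow, div_one]
  have h3 : absLogHeight (aff fun l => p.ev ⟨c l, hcx l⟩) ≤ famHeight p s' := by
    rw [e2, e3]
    exact absLogHeight_comp_le _ _
  have h4 := (abs_le.mp key).2
  rw [e1] at h4
  linarith

end HMAff

section Adapter

/-- **HM-AFF as a good piece.** `U` an open on which `s i0 = 1` generates the family `s`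
(all `s j` are regular on `U`), `c` a finite family of generators of `Γ(V, U)` over `Ω` which are
sections of the `k1`-th power of the sheaf generated by `s`.  Then `HtBounded f s U`. -/
theorem HtBounded.of_sectionsOf [UniversallyClosed f] (s : ι → V.functionField)
    (hs : SectionsOf s s) (i0 : ι) (hi0 : s i0 = 1) (U : V.Opens) [Nonempty U]
    (hU : ∀ x ∈ U, ∀ j, s j ∈ stalkSubring x) (c : κ → Γ(V, U))
    (hgen : ∀ a : Γ(V, U), ∃ G : MvPolynomial κ Ω, MvPolynomial.eval₂ (structMapOn f U) c G = a)
    (k1 : ℕ) (hc : SectionsOf (fun i => s i ^ k1) (fun l => V.germToFunctionField U (c l))) :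
    HtBounded f s U := by
  letI := ffAlgebra f
  obtain ⟨C, hC⟩ := exists_const_absLogHeight_aff_ev_le f s hs i0 hi0 k1
    (fun l => V.germToFunctionField U (c l)) hc
  refine HtBounded.of_generators U c hgen ⟨k1, C, fun x hx => ?_⟩
  have hg : GenAt (evalPtOfSection f x.1 x.2) s i0 := by
    refine ⟨by rw [hi0]; exact one_ne_zero, fun j => ?_⟩
    rw [hi0, div_one]
    exact hU _ hx j
  have h1 := hC x hg (fun l => germToFunctionField_mem_stalkSubring U _ hx (c l))
  have h2 : (fun l => (evalPtOfSection f x.1 x.2).ev ⟨V.germToFunctionField U (c l),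
      germToFunctionField_mem_stalkSubring U _ hx (c l)⟩) =
      fun l => germVal x.1 U hx (c l) := by
    funext l
    exact ev_germToFunctionField f x U hx (c l)
  rw [h2] at h1
  exact h1

end Adapter

end Fermat.Agent.MW.NorthB10
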