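/-
helper10 — programme MW (S17), brick NC-B2 (f): the good affine piece `U = V ∖ Supp D` from AV's
Cartier divisors (`AV/PicDiv86`) through helper73's adapter `MW/Inst73/CaDivFamily.lean`.
-/
import Fermat.Agent.MW.NorthB10.Aff
import Fermat.Agent.MW.Inst73.CaDivFamily
import Fermat.Agent.AV.PicDiv86.Extension

set_option autoImplicit false
set_option linter.unusedSectionVars false
set_option linter.style.haveILetI false

universe u

open CategoryTheory AlgebraicGeometry

namespace Fermat.Agent.MW.NorthB10

open Fermat.Agent.MW.AbsHeightDef10 Fermat.Agent.MW.AbsHeightOne10 Fermat.Agent.MW.AffinePoly10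
  Fermat.Agent.MW.HM73 Fermat.Agent.MW.Inst73 Fermat.Agent.AV.PicDiv86

variable {Ω : Type u} [Field Ω] [CharZero Ω] [Algebra.IsAlgebraic ℚ Ω] {V : Scheme.{u}}
  [IsIntegral V] (f : V ⟶ Spec (CommRingCat.of Ω)) {ι : Type*} [Finite ι]

/-- **The good affine piece of an effective Cartier divisor.**  `s` a finite family generating
`O(D)` (`Inst73.Generates`), `D` effective with canonical section `s i0 = 1`; if the complement
`U` of the support of `D` is affine then regular functions on `U` have height bounded by
`hgt f s` (`HtBounded f s U`): they are sections of `O(mD)` for `m ≫ 0` (extension lemma,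
`PicDiv86.CaDiv.exists_forall_mem_H0_pow_of_finite`) and HM-AFF applies. -/
theorem HtBounded.of_generates [UniversallyClosed f] [LocallyOfFiniteType f]
    {s : ι → V.functionField} {D : CaDiv V} (hD : D.IsEffective) (hs : Generates s D)
    (i0 : ι) (hi0 : s i0 = 1) (U : V.Opens) [Nonempty U] (hU : (U : Set V) = D.supportᶜ)
    (hUa : IsAffineOpen U) : HtBounded f s U := by
  have hcomp : CompactSpace V := compactSpace_of_universallyClosed f
  obtain ⟨n, c, hgen⟩ := exists_generators_of_locallyOfFiniteType (f := f) hUa
  have hg : ∀ l, V.germToFunctionField U (c l) ∈ regularOn V D.supportᶜ := fun l => by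
    rw [← hU]
    exact germToFunctionField_mem_regularOn (c l)
  obtain ⟨m, hm⟩ := CaDiv.exists_forall_mem_H0_pow_of_finite hD
    (fun l => V.germToFunctionField U (c l)) hg
  have hc : SectionsOf (fun i => s i ^ m) (fun l => V.germToFunctionField U (c l)) :=
    (hs.pow m).sectionsOf (hm m le_rfl)
  refine HtBounded.of_sectionsOf f s hs.sectionsOf_self i0 hi0 U (fun x hx j => ?_) c hgen m hc
  have h1 := CaDiv.mem_regularOn_compl_support (hs.1 j)
  rw [← hU] at h1
  exact mem_regularOn.1 h1 x hx

end Fermat.Agent.MW.NorthB10
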