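/-
helper10 — programme MW (S17): supports of products of effective Cartier divisors
(complement to `AV/PicDiv86/Basic.lean`): `Supp (D * E) = Supp D ∪ Supp E`,
`Supp (D ^ n) = Supp D` (`n ≥ 1`) for effective `D`, `E`.
-/
import Fermat.Agent.AV.PicDiv86.Basic

set_option autoImplicit false

universe u

open AlgebraicGeometry

namespace Fermat.Agent.MW.NorthB10

open Fermat.Agent.AV.PicDiv86

variable {X : Scheme.{u}} [IsIntegral X]

theorem notMem_support_left_of_mul {D E : CaDiv X} (hE : E.IsEffective) {x : X}
    (hx : x ∉ (D * E).support) (hDx : ∀ f : X.functionFieldˣ, D.IsLocalEq x f →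
      (f : X.functionField) ∈ stalkSubring X x) : x ∉ D.support := by
  obtain ⟨f, hf⟩ := D.exists_isLocalEq x
  obtain ⟨e, he⟩ := E.exists_isLocalEq x
  have h1 := (CaDiv.notMem_support_iff_of_isLocalEq (hf.mul he)).1 hx
  rw [CaDiv.notMem_support_iff_of_isLocalEq hf, mem_stalkUnits_iff]
  refine ⟨hDx f hf, ?_⟩
  have h2 := (mem_stalkUnits_iff.1 h1).2
  have h3 : ((f⁻¹ : X.functionFieldˣ) : X.functionField) =
      (e : X.functionField) * (((f * e)⁻¹ : X.functionFieldˣ) : X.functionField) := by
    have hf0 := f.ne_zero
    have he0 := e.ne_zero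
    push_cast
    field_simp
  rw [h3]
  exact (stalkSubring X x).mul_mem (hE x e he) h2

/-- The support of a product of effective Cartier divisors is the union of the supports. -/
theorem support_mul_of_isEffective {D E : CaDiv X} (hD : D.IsEffective) (hE : E.IsEffective) :
    (D * E).support = D.support ∪ E.support := by
  refine Set.Subset.antisymm (CaDiv.support_mul_subset D E) ?_
  intro x hx
  by_contra hx'
  rcases hx with h | h
  · exact notMem_support_left_of_mul hE hx' (hD x) h
  · rw [mul_comm] at hx'
    exact notMem_support_left_of_mul hD hx' (hE x) h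

/-- The support of a positive power of an effective Cartier divisor. -/
theorem support_pow_of_isEffective {D : CaDiv X} (hD : D.IsEffective) {n : ℕ} (hn : 0 < n) :
    (D ^ n).support = D.support := by
  induction n with
  | zero => exact absurd hn (lt_irrefl 0)
  | succ n ih =>
    rcases Nat.eq_zero_or_pos n with h0 | hpos
    · subst h0; simp
    · rw [pow_succ, support_mul_of_isEffective (hD.pow n) hD, ih hpos, Set.union_self]

end Fermat.Agent.MW.NorthB10
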