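/-
helper10 — programme MW (S17), brick NC-B2 (d): from good pieces to an open set.

* `isNoetherian_of_universallyClosed`, `le_of_forall_pt_mem` (Jacobson: an open containing all
  `Ω`-points of an open `Y` contains `Y`; `Ω` algebraically closed).
* `exists_const_absLogHeightOne_le_hgt_of_cover` : if every `Ω`-point of the open `Y` of `V` has
  an affine neighbourhood `T ≤ Y` with `HtBounded f s T`, then for a function `z` on an open
  `X₀ ⊇ σ⁻¹ Y` of `X` (`σ : X ⟶ V` universally closed):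
  `h(z(w)) ≤ D * hgt f s (σ w) + C` for all `Ω`-points `w` with `σ w ∈ Y`.
* `exists_piece_of_isIso`, `exists_const_absLogHeightOne_le_hgt_of_translates` : the pieces are
  basic opens of translates `g⁻¹ U` of one good affine open `U`.
-/
import Fermat.Agent.MW.NorthB10.Piece
import Mathlib.AlgebraicGeometry.AlgClosed.Basic
import Mathlib.AlgebraicGeometry.Noetherian

set_option autoImplicit false
set_option linter.unusedSectionVars false
set_option linter.style.haveILetI false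

universe u

open CategoryTheory AlgebraicGeometry

namespace Fermat.Agent.MW.NorthB10

open Fermat.Agent.MW.AbsHeightDef10 Fermat.Agent.MW.AbsHeightOne10 Fermat.Agent.MW.AffinePoly10
  Fermat.Agent.MW.HM73

variable {Ω : Type u} [Field Ω] {V : Scheme.{u}}
  {f : V ⟶ Spec (CommRingCat.of Ω)}

section Topology

/-- A scheme universally closed and locally of finite type over a field is Noetherian. -/
theorem isNoetherian_of_universallyClosed [UniversallyClosed f] [LocallyOfFiniteType f] :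
    IsNoetherian V := by
  have h1 : CompactSpace V := compactSpace_of_universallyClosed f
  have h2 : IsLocallyNoetherian V := LocallyOfFiniteType.isLocallyNoetherian f
  exact { }

/-- Over an algebraically closed field: an open subset containing all the `Ω`-points of an open
`Y` contains `Y`. -/
theorem le_of_forall_pt_mem [IsAlgClosed Ω] [LocallyOfFiniteType f] (Y Y' : V.Opens)
    (h : ∀ x : {σ : Spec (CommRingCat.of Ω) ⟶ V // σ ≫ f = 𝟙 _},
      x.1 (IsLocalRing.closedPoint Ω) ∈ Y → x.1 (IsLocalRing.closedPoint Ω) ∈ Y') : Y ≤ Y' := by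
  have : JacobsonSpace V := LocallyOfFiniteType.jacobsonSpace f
  by_contra hne
  have hZ : ((Y : Set V) \ (Y' : Set V)).Nonempty := by
    by_contra h0
    rw [Set.not_nonempty_iff_eq_empty, Set.sdiff_eq_empty] at h0
    exact hne h0
  have hlc : IsLocallyClosed ((Y : Set V) \ (Y' : Set V)) :=
    Y.isOpen.isLocallyClosed.inter Y'.isOpen.isClosed_compl.isLocallyClosed
  obtain ⟨y, ⟨hyY, hyY'⟩, hy⟩ := nonempty_inter_closedPoints hZ hlc
  have hy' : IsClosed {y} := hy
  have := h ⟨pointOfClosedPoint f y hy', pointOfClosedPoint_comp f y hy'⟩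
    (by rw [pointOfClosedPoint_apply]; exact hyY)
  rw [pointOfClosedPoint_apply] at this
  exact hyY' this

end Topology

section Cover

variable [IsIntegral V] [CharZero Ω] [Algebra.IsAlgebraic ℚ Ω] {ι : Type*} [Finite ι]
  {s : ι → V.functionField} {X : Scheme.{u}}

/-- **NC-B over an open covered by good pieces.**  `V` universally closed and locally of finite
type over an algebraically closed `Ω`; `σ : X ⟶ V` universally closed; `Y` an open of `V` such
that every `Ω`-point of `Y` lies in an affine open `T ≤ Y` with `HtBounded f s T`; `z` a function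
on an open `X₀ ⊇ σ⁻¹ Y`.  Then the height of `z(w)` is bounded linearly by `hgt f s (σ w)` for
all `Ω`-points `w` of `X` with `σ w ∈ Y`. -/
theorem exists_const_absLogHeightOne_le_hgt_of_cover [IsAlgClosed Ω] [UniversallyClosed f]
    [LocallyOfFiniteType f] (σ : X ⟶ V) [UniversallyClosed σ] (Y : V.Opens) (X₀ : X.Opens)
    (hX₀ : σ ⁻¹ᵁ Y ≤ X₀) (z : Γ(X, X₀))
    (hpieces : ∀ x : Pt f, x.1 (IsLocalRing.closedPoint Ω) ∈ Y →
      ∃ T : V.Opens, x.1 (IsLocalRing.closedPoint Ω) ∈ T ∧ T ≤ Y ∧ IsAffineOpen T ∧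
        HtBounded f s T) :
    ∃ D C : ℝ, ∀ (w : Spec (CommRingCat.of Ω) ⟶ X) (hw : (w ≫ σ) ≫ f = 𝟙 _)
      (hwY : (w ≫ σ) (IsLocalRing.closedPoint Ω) ∈ Y),
      absLogHeightOne (germVal w X₀ (hX₀ hwY) z) ≤ D * hgt f s ⟨w ≫ σ, hw⟩ + C := by
  classical
  have hN : IsNoetherian V := isNoetherian_of_universallyClosed (f := f)
  -- the good pieces inside `Y`
  let 𝒯 : Type u := {T : V.Opens // T ≤ Y ∧ IsAffineOpen T ∧ HtBounded f s T}
  have hcov : Y ≤ ⨆ T : 𝒯, T.1 := by
    apply le_of_forall_pt_mem (f := f)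
    intro x hx
    obtain ⟨T, hxT, hTY, hTa, hTb⟩ := hpieces x hx
    exact TopologicalSpace.Opens.mem_iSup.mpr ⟨⟨T, hTY, hTa, hTb⟩, hxT⟩
  have hYc : IsCompact (Y : Set V) := TopologicalSpace.NoetherianSpace.isCompact _
  obtain ⟨t, ht⟩ := hYc.elim_finite_subcover (fun T : 𝒯 => (T.1 : Set V))
    (fun T => T.1.isOpen) (by
      intro y hy
      have := hcov hy
      rw [TopologicalSpace.Opens.mem_iSup] at this
      obtain ⟨T, hT⟩ := this
      exact Set.mem_iUnion.mpr ⟨T, hT⟩)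
  -- constants for each piece
  have hle : ∀ T : 𝒯, σ ⁻¹ᵁ T.1 ≤ X₀ := fun T => le_trans (σ.preimage_mono T.2.1) hX₀
  choose D C hD0 hDC using fun T : 𝒯 =>
    exists_const_absLogHeightOne_le_hgt (f := f) (s := s) σ T.2.2.1 T.2.2.2
      ((X.presheaf.map (homOfLE (hle T)).op).hom z)
  refine ⟨∑ T ∈ t, D T, ∑ T ∈ t, |C T|, fun w hw hwY => ?_⟩
  obtain ⟨T, hTt, hwT⟩ : ∃ T ∈ t, (w ≫ σ) (IsLocalRing.closedPoint Ω) ∈ T.1 := by
    have := ht hwY
    simp only [Set.mem_iUnion] at this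
    obtain ⟨T, hTt, hT⟩ := this
    exact ⟨T, hTt, hT⟩
  have h1 := hDC T w hw hwT
  rw [germVal_res w (hle T) hwT z] at h1
  have h2 : D T ≤ ∑ T ∈ t, D T :=
    Finset.single_le_sum (f := D) (fun T _ => hD0 T) hTt
  have h3 : C T ≤ ∑ T ∈ t, |C T| :=
    le_trans (le_abs_self _) (Finset.single_le_sum (f := fun T => |C T|)
      (fun T _ => abs_nonneg _) hTt)
  have h4 : 0 ≤ hgt f s ⟨w ≫ σ, hw⟩ := hgt_nonneg f s _
  have h5 : D T * hgt f s ⟨w ≫ σ, hw⟩ ≤ (∑ T ∈ t, D T) * hgt f s ⟨w ≫ σ, hw⟩ :=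
    mul_le_mul_of_nonneg_right h2 h4
  linarith

end Cover

section Translates

variable [IsIntegral V] [CharZero Ω] [Algebra.IsAlgebraic ℚ Ω] {ι : Type*} [Finite ι]
  {s : ι → V.functionField} {X : Scheme.{u}}

/-- A point which an automorphism `g` (changing heights at most linearly) moves into a good affine
open `U` has a good affine neighbourhood inside any given open `Y`: a basic open of `g⁻¹ U`. -/
theorem exists_piece_of_isIso {U : V.Opens} (hU : IsAffineOpen U) (hbU : HtBounded f s U)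
    (Y : V.Opens) (x : Pt f) (hx : x.1 (IsLocalRing.closedPoint Ω) ∈ Y)
    (g : V ⟶ V) [IsIso g] (hg : g ≫ f = f) (A B : ℝ)
    (hAB : ∀ x' : Pt f, hgt f s (ptMap f g hg x') ≤ A * hgt f s x' + B)
    (hgx : (ptMap f g hg x).1 (IsLocalRing.closedPoint Ω) ∈ U) :
    ∃ T : V.Opens, x.1 (IsLocalRing.closedPoint Ω) ∈ T ∧ T ≤ Y ∧ IsAffineOpen T ∧
      HtBounded f s T := by
  have hT₀ : IsAffineOpen (g ⁻¹ᵁ U) := hU.preimage_of_isIso g
  have hb₀ : HtBounded f s (g ⁻¹ᵁ U) := hbU.preimage_of_isIso g hg A B hAB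
  have hx₀ : x.1 (IsLocalRing.closedPoint Ω) ∈ g ⁻¹ᵁ U := hgx
  obtain ⟨φ, hφY, hxφ⟩ := hT₀.exists_basicOpen_le (V := Y) ⟨_, hx⟩ hx₀
  exact ⟨V.basicOpen φ, hxφ, hφY, hT₀.basicOpen φ, hb₀.basicOpen hT₀ φ⟩

/-- **NC-B over an open, pieces from translates of one good affine open `U`.** -/
theorem exists_const_absLogHeightOne_le_hgt_of_translates [IsAlgClosed Ω] [UniversallyClosed f]
    [LocallyOfFiniteType f] (σ : X ⟶ V) [UniversallyClosed σ] (Y : V.Opens) (X₀ : X.Opens)
    (hX₀ : σ ⁻¹ᵁ Y ≤ X₀) (z : Γ(X, X₀)) {U : V.Opens} (hU : IsAffineOpen U)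
    (hbU : HtBounded f s U)
    (htr : ∀ x : Pt f, x.1 (IsLocalRing.closedPoint Ω) ∈ Y →
      ∃ (g : V ⟶ V) (_ : IsIso g) (hg : g ≫ f = f) (A B : ℝ),
        (∀ x' : Pt f, hgt f s (ptMap f g hg x') ≤ A * hgt f s x' + B) ∧
        (ptMap f g hg x).1 (IsLocalRing.closedPoint Ω) ∈ U) :
    ∃ D C : ℝ, ∀ (w : Spec (CommRingCat.of Ω) ⟶ X) (hw : (w ≫ σ) ≫ f = 𝟙 _)
      (hwY : (w ≫ σ) (IsLocalRing.closedPoint Ω) ∈ Y),
      absLogHeightOne (germVal w X₀ (hX₀ hwY) z) ≤ D * hgt f s ⟨w ≫ σ, hw⟩ + C := by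
  refine exists_const_absLogHeightOne_le_hgt_of_cover (f := f) (s := s) σ Y X₀ hX₀ z ?_
  intro x hx
  obtain ⟨g, hgi, hg, A, B, hAB, hgx⟩ := htr x hx
  exact exists_piece_of_isIso hU hbU Y x hx g hg A B hAB hgx

end Translates

end Fermat.Agent.MW.NorthB10
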