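/-
helper10 — programme MW (S17), brick NC-B2 (e): the good-pieces theorem at the level of
`MW.GeomCore N` (helper73's contract, `MW/GeomPackage73.lean`).

* `exists_transl_hgt_le` : `hgt (t_a x) ≤ 2 * hgt x + B` for ALL `Qbar`-points `x` of `V`.
* `exists_const_of_geomCore` : NORTH-C(b) core: for `G : GeomCore N` (with its fields `β_surj`,
  `transl_iso`, `locFinType`), `U` a good affine open meeting `β`;
  `σ : X ⟶ V` universally closed, `Y` open, `z` a function on `X₀ ⊇ σ⁻¹ Y`: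
  `h(z(w)) ≤ D * hgt (σ w) + C` for all `Qbar`-points `w` with `σ w ∈ Y`.
* `exists_β_mem`; `exists_const_of_geomCore_of_generates` : the same with `U = V ∖ Supp D` affine,
  `G.s` generating `O(D)` (`Inst73.Generates`), `D` effective, `G.s i0 = 1`.
-/
import Fermat.Agent.MW.NorthB10.Cover
import Fermat.Agent.MW.NorthB10.Aff
import Fermat.Agent.MW.NorthB10.CaDivPiece
import Fermat.Agent.MW.GeomPackage73

set_option autoImplicit false
set_option linter.unusedSectionVars false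
set_option linter.style.haveILetI false

open CategoryTheory AlgebraicGeometry ModularCurve AlgebraicCurve

namespace Fermat.Agent.MW.NorthB10

open Fermat.Agent.MW.AbsHeightDef10 Fermat.Agent.MW.AbsHeightOne10 Fermat.Agent.MW.AffinePoly10
  Fermat.Agent.MW.HM73 Fermat.Agent.MW

variable {N : ℕ} [NeZero N] (G : GeomCore N)

/-- Translation inequality on ALL `Qbar`-points of `V` (not only those in the image of `β`). -/
theorem exists_transl_hgt_le (a : JZero N) : ∃ B : ℝ, ∀ x : Pt G.f,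
    hgt G.f G.s (ptMap G.f (G.transl a) (G.transl_over a) x) ≤ 2 * hgt G.f G.s x + B := by
  obtain ⟨d, φ, hd, hφ, h1, h2⟩ := G.square a
  obtain ⟨C, hC⟩ := exists_const_abs_hgt_add_sub_le_pow G.f G.s G.gen (G.transl a) (G.transl (-a))
    (G.transl_over a) (G.transl_over (-a)) (G.transl_dom a) (G.transl_dom (-a)) d φ hφ h1 h2
  have hd' : (0 : ℝ) < d := by exact_mod_cast hd
  refine ⟨C / d, fun x => ?_⟩
  have h := (abs_le.mp (hC x)).2
  have h0 : 0 ≤ hgt G.f G.s (ptMap G.f (G.transl (-a)) (G.transl_over (-a)) x) :=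
    hgt_nonneg _ _ _
  have key : d * hgt G.f G.s (ptMap G.f (G.transl a) (G.transl_over a) x) ≤
      d * (2 * hgt G.f G.s x + C / d) := by
    have e : d * (2 * hgt G.f G.s x + C / d) = d * (2 * hgt G.f G.s x) + C := by
      field_simp
    rw [e]
    nlinarith [mul_nonneg hd'.le h0]
  exact le_of_mul_le_mul_left key hd'

/-- **NORTH-C(b), core-package form.**  Let `G : GeomCore N` (`β` surjective, translations
isomorphisms, `V` locally of finite type: fields of `GeomCore`); `U` an affine open of `V` with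
`HtBounded` (from HM-AFF) containing some `β u`.  For `σ : X ⟶ V` universally closed, `Y` open in
`V`, `z` a function on an open `X₀ ⊇ σ⁻¹ Y`:  `h(z(w)) ≤ D * hgt (σ w) + C` for all
`Qbar`-points `w` of `X` with `σ w ∈ Y`. -/
theorem exists_const_of_geomCore {U : G.V.Opens} (hU : IsAffineOpen U)
    (hbU : HtBounded G.f G.s U)
    (hUne : ∃ u : JZero N, (G.β u).1 (IsLocalRing.closedPoint QBar) ∈ U)
    {X : Scheme.{0}} (σ : X ⟶ G.V) [UniversallyClosed σ] (Y : G.V.Opens) (X₀ : X.Opens)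
    (hX₀ : σ ⁻¹ᵁ Y ≤ X₀) (z : Γ(X, X₀)) :
    ∃ D C : ℝ, ∀ (w : Spec (CommRingCat.of QBar) ⟶ X) (hw : (w ≫ σ) ≫ G.f = 𝟙 _)
      (hwY : (w ≫ σ) (IsLocalRing.closedPoint QBar) ∈ Y),
      absLogHeightOne (germVal w X₀ (hX₀ hwY) z) ≤ D * hgt G.f G.s ⟨w ≫ σ, hw⟩ + C := by
  refine exists_const_absLogHeightOne_le_hgt_of_translates (f := G.f) (s := G.s) σ Y X₀ hX₀ z hU hbU
    ?_
  intro x _
  obtain ⟨u, hu⟩ := hUne
  obtain ⟨x₀, rfl⟩ := G.β_surj x
  obtain ⟨B, hB⟩ := exists_transl_hgt_le G (u - x₀)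
  refine ⟨G.transl (u - x₀), inferInstance, G.transl_over _, 2, B, hB, ?_⟩
  rw [G.transl_pt (u - x₀) x₀]
  have e : x₀ + (u - x₀) = u := by abel
  rw [e]
  exact hu

/-- A nonempty open of `V` contains some `β u` (Jacobson + `β` surjective). -/
theorem exists_β_mem (U : G.V.Opens) (hne : (U : Set G.V).Nonempty) :
    ∃ u : JZero N, (G.β u).1 (IsLocalRing.closedPoint QBar) ∈ U := by
  by_contra hcon
  have hle : U ≤ ⊥ := by
    apply le_of_forall_pt_mem (f := G.f)
    intro x hx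
    obtain ⟨u, rfl⟩ := G.β_surj x
    exact absurd ⟨u, hx⟩ hcon
  obtain ⟨y, hy⟩ := hne
  exact hle hy

/-- The same with `U` the affine complement of the support of an effective Cartier divisor `D`
such that `G.s` generates `O(D)` and contains the canonical section `1`. -/
theorem exists_const_of_geomCore_of_generates
    {D : Fermat.Agent.AV.PicDiv86.CaDiv G.V} (hD : D.IsEffective)
    (hs : Fermat.Agent.MW.Inst73.Generates G.s D) (i0 : G.ι) (hi0 : G.s i0 = 1)
    (U : G.V.Opens) (hU : (U : Set G.V) = D.supportᶜ) (hUa : IsAffineOpen U)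
    (hne : (U : Set G.V).Nonempty)
    {X : Scheme.{0}} (σ : X ⟶ G.V) [UniversallyClosed σ] (Y : G.V.Opens) (X₀ : X.Opens)
    (hX₀ : σ ⁻¹ᵁ Y ≤ X₀) (z : Γ(X, X₀)) :
    ∃ D C : ℝ, ∀ (w : Spec (CommRingCat.of QBar) ⟶ X) (hw : (w ≫ σ) ≫ G.f = 𝟙 _)
      (hwY : (w ≫ σ) (IsLocalRing.closedPoint QBar) ∈ Y),
      absLogHeightOne (germVal w X₀ (hX₀ hwY) z) ≤ D * hgt G.f G.s ⟨w ≫ σ, hw⟩ + C := by
  have : Nonempty U := ⟨⟨hne.some, hne.some_mem⟩⟩
  exact exists_const_of_geomCore G hUa (HtBounded.of_generates G.f hD hs i0 hi0 U hU hUa)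
    (exists_β_mem G U hne) σ Y X₀ hX₀ z

end Fermat.Agent.MW.NorthB10
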