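/-
helper10 — programme MW (S17): adding the canonical section `1` of an effective Cartier divisor
to a generating family keeps it generating (`Inst73.Generates`); needed because HM-AFF /
`HtBounded.of_generates` want a member `s i0 = 1` in the family.
-/
import Fermat.Agent.MW.Inst73.CaDivFamily

set_option autoImplicit false

universe u

open AlgebraicGeometry

namespace Fermat.Agent.MW.NorthB10

open Fermat.Agent.AV.PicDiv86 Fermat.Agent.MW.Inst73

variable {X : Scheme.{u}} [IsIntegral X] {ι : Type*}

/-- Enlarging a generating family by a global section keeps it generating. -/
theorem Generates.option_elim {s : ι → X.functionField} {D : CaDiv X} (hs : Generates s D)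
    {a : X.functionField} (ha : a ∈ D.H0) :
    Generates (fun o : Option ι => o.elim a s) D := by
  refine ⟨fun o => ?_, fun x => ?_⟩
  · cases o with
    | none => exact ha
    | some i => exact hs.1 i
  · obtain ⟨i, f, hf, hi, hinv⟩ := hs.2 x
    exact ⟨some i, f, hf, hi, hinv⟩

/-- Adding the canonical section `1` of an effective divisor. -/
theorem Generates.cons_one {s : ι → X.functionField} {D : CaDiv X} (hs : Generates s D)
    (hD : D.IsEffective) : Generates (fun o : Option ι => o.elim 1 s) D :=
  Generates.option_elim hs (CaDiv.one_mem_H0 hD)

end Fermat.Agent.MW.NorthB10
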