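/-
helper10 — programme MW (S17), brick NC-B T5 (helper73's msgs 6141/6182): the end-to-end form.

* `HtBounded.of_generates_sq` : GENERIC instantiation of `HtBounded`: `V` integral, universally
  closed and locally of finite type over `Ω`; `D0` an effective Cartier divisor, `U` an affine
  open with `D0.support = Uᶜ`; `s` a finite family with `Inst73.Generates s (D0 * D0)` (the output
  of `Inst49/Cover.exists_generates_sq`) containing the canonical section `s i0 = 1`.  Then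
  `HtBounded f s U`.
* `GeomCore.exists_const_of_open` : for `G : GeomCore N`, a good affine open `U` (nonempty,
  `HtBounded G.f G.s U`), `σ : X ⟶ G.V` universally closed, `Y` open in `G.V`, `z` a function on
  an open `X₀ ⊇ σ⁻¹ Y`: `∃ D C, 0 ≤ D ∧ ∀ w, σ w ∈ Y → h(z(w)) ≤ D * hgt (σ w) + C`.
-/
import Fermat.Agent.MW.NorthB10.Core
import Fermat.Agent.MW.NorthB10.CaDivSupport

set_option autoImplicit false
set_option linter.unusedSectionVars false
set_option linter.style.haveILetI false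

universe u

open CategoryTheory AlgebraicGeometry ModularCurve AlgebraicCurve

namespace Fermat.Agent.MW.NorthB10

open Fermat.Agent.MW.AbsHeightDef10 Fermat.Agent.MW.AbsHeightOne10 Fermat.Agent.MW.AffinePoly10
  Fermat.Agent.MW.HM73 Fermat.Agent.MW.Inst73 Fermat.Agent.AV.PicDiv86 Fermat.Agent.MW

section Generic

variable {Ω : Type u} [Field Ω] [CharZero Ω] [Algebra.IsAlgebraic ℚ Ω] {V : Scheme.{u}}
  [IsIntegral V] (f : V ⟶ Spec (CommRingCat.of Ω)) {ι : Type*} [Finite ι]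

/-- **Generic instantiation of `HtBounded`** from a symmetric-divisor package: `U` affine with
complement the support of the effective `D0`, `s` generating `O(2 D0)` and containing `1`. -/
theorem HtBounded.of_generates_sq [UniversallyClosed f] [LocallyOfFiniteType f]
    {s : ι → V.functionField} {D0 : CaDiv V} (hD0 : D0.IsEffective)
    (hs : Generates s (D0 * D0)) (i0 : ι) (hi0 : s i0 = 1) (U : V.Opens) [Nonempty U]
    (hU : D0.support = (U : Set V)ᶜ) (hUa : IsAffineOpen U) : HtBounded f s U := by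
  refine HtBounded.of_generates f (hD0.mul hD0) hs i0 hi0 U ?_ hUa
  rw [support_mul_of_isEffective hD0 hD0, Set.union_self, hU, compl_compl]

end Generic

section Core

variable {N : ℕ} [NeZero N] (G : GeomCore N)

/-- **NC-B T5.** The scheme-level bound of NORTH-C(b) for a core package `G` and a good affine
open `U`. -/
theorem _root_.Fermat.Agent.MW.GeomCore.exists_const_of_open (U : G.V.Opens)
    (hU : IsAffineOpen U) [Nonempty U] (hb : HtBounded G.f G.s U)
    {X : Scheme.{0}} (σ : X ⟶ G.V) [UniversallyClosed σ] (Y : G.V.Opens) (X₀ : X.Opens)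
    (hX₀ : σ ⁻¹ᵁ Y ≤ X₀) (z : Γ(X, X₀)) :
    ∃ D C : ℝ, 0 ≤ D ∧ ∀ (w : Spec (CommRingCat.of QBar) ⟶ X) (hw : (w ≫ σ) ≫ G.f = 𝟙 _)
      (hwY : (w ≫ σ) (IsLocalRing.closedPoint QBar) ∈ Y),
      absLogHeightOne (germVal w X₀ (hX₀ hwY) z) ≤ D * hgt G.f G.s ⟨w ≫ σ, hw⟩ + C := by
  have hne : (U : Set G.V).Nonempty := by
    obtain ⟨⟨x, hx⟩⟩ := ‹Nonempty U›
    exact ⟨x, hx⟩
  obtain ⟨D, C, h⟩ := exists_const_of_geomCore G hU hb (exists_β_mem G U hne) σ Y X₀ hX₀ z
  refine ⟨max D 0, C, le_max_right _ _, fun w hw hwY => ?_⟩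
  have h1 := h w hw hwY
  have h2 : D * hgt G.f G.s ⟨w ≫ σ, hw⟩ ≤ max D 0 * hgt G.f G.s ⟨w ≫ σ, hw⟩ :=
    mul_le_mul_of_nonneg_right (le_max_left _ _) (hgt_nonneg _ _ _)
  linarith

/-- The same for finitely many functions `z j` at once (common constants). -/
theorem _root_.Fermat.Agent.MW.GeomCore.exists_const_of_open_of_finite (U : G.V.Opens)
    (hU : IsAffineOpen U) [Nonempty U] (hb : HtBounded G.f G.s U)
    {X : Scheme.{0}} (σ : X ⟶ G.V) [UniversallyClosed σ] (Y : G.V.Opens) (X₀ : X.Opens)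
    (hX₀ : σ ⁻¹ᵁ Y ≤ X₀) {J : Type*} [Finite J] (z : J → Γ(X, X₀)) :
    ∃ D C : ℝ, 0 ≤ D ∧ ∀ (w : Spec (CommRingCat.of QBar) ⟶ X) (hw : (w ≫ σ) ≫ G.f = 𝟙 _)
      (hwY : (w ≫ σ) (IsLocalRing.closedPoint QBar) ∈ Y) (j : J),
      absLogHeightOne (germVal w X₀ (hX₀ hwY) (z j)) ≤ D * hgt G.f G.s ⟨w ≫ σ, hw⟩ + C := by
  classical
  cases nonempty_fintype J
  choose D C hD0 hDC using fun j => G.exists_const_of_open U hU hb σ Y X₀ hX₀ (z j)
  refine ⟨∑ j, D j, ∑ j, |C j|, Finset.sum_nonneg fun j _ => hD0 j, fun w hw hwY j => ?_⟩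
  have h1 := hDC j w hw hwY
  have h2 : D j ≤ ∑ j, D j :=
    Finset.single_le_sum (f := D) (fun j _ => hD0 j) (Finset.mem_univ j)
  have h3 : C j ≤ ∑ j, |C j| :=
    le_trans (le_abs_self _) (Finset.single_le_sum (f := fun j => |C j|)
      (fun j _ => abs_nonneg _) (Finset.mem_univ j))
  have h4 : D j * hgt G.f G.s ⟨w ≫ σ, hw⟩ ≤ (∑ j, D j) * hgt G.f G.s ⟨w ≫ σ, hw⟩ :=
    mul_le_mul_of_nonneg_right h2 (hgt_nonneg _ _ _)
  linarith

end Core

end Fermat.Agent.MW.NorthB10
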