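/-
helper10 — programme MW (S17): the covering of `G.V` by good affine pieces, in the exact shape of
the hypothesis `hpieces` of helper32's `NorthB32.exists_const_coord / exists_const_all /
exists_const_of_dictionary`.
-/
import Fermat.Agent.MW.NorthB10.Inst

set_option autoImplicit false
set_option linter.unusedSectionVars false
set_option linter.style.haveILetI false

open CategoryTheory AlgebraicGeometry ModularCurve AlgebraicCurve

namespace Fermat.Agent.MW.NorthB10

open Fermat.Agent.MW.HM73 Fermat.Agent.MW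

variable {N : ℕ} [NeZero N] (G : GeomCore N)

/-- **Every `Qbar`-point of `G.V` has a good affine neighbourhood** (a translate of `U`). -/
theorem _root_.Fermat.Agent.MW.GeomCore.exists_pieces (U : G.V.Opens) (hU : IsAffineOpen U)
    [Nonempty U] (hb : HtBounded G.f G.s U) :
    ∀ x : Pt G.f, ∃ T : G.V.Opens, x.1 (IsLocalRing.closedPoint QBar) ∈ T ∧ IsAffineOpen T ∧
      HtBounded G.f G.s T := by
  intro x
  have hne : (U : Set G.V).Nonempty := by
    obtain ⟨⟨y, hy⟩⟩ := ‹Nonempty U›
    exact ⟨y, hy⟩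
  obtain ⟨u, hu⟩ := exists_β_mem G U hne
  obtain ⟨x₀, rfl⟩ := G.β_surj x
  obtain ⟨B, hB⟩ := exists_transl_hgt_le G (u - x₀)
  refine ⟨G.transl (u - x₀) ⁻¹ᵁ U, ?_, hU.preimage_of_isIso _,
    hb.preimage_of_isIso (G.transl (u - x₀)) (G.transl_over _) 2 B hB⟩
  show (ptMap G.f (G.transl (u - x₀)) (G.transl_over _) (G.β x₀)).1
    (IsLocalRing.closedPoint QBar) ∈ U
  rw [G.transl_pt (u - x₀) x₀]
  have e : x₀ + (u - x₀) = u := by abel
  rw [e]
  exact hu

end Fermat.Agent.MW.NorthB10
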