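/-
helper10 — programme MW (S17), brick NC-B T8 (abstract final wiring, helper73's msg 6261).

From the scheme-level bound T5 on the stratum `r` and a POINT DICTIONARY (hypotheses, to be
supplied concretely by the bridge bricks T6/T7: `K`-points of `C^r` ↔ `r`-tuples of places,
`σ_r (w) = β [Σ P_j − r·oo]`, `z_j (w) = t (P_j)`), to helper2's consumer
`NorthAsm2.StratumBound`.

* `exists_Kpoint_lift_of_mem_range` : a `K`-point of `A` whose underlying point is in the range of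
  `σ' : X' ⟶ A` lifts to a `K`-point of `X'` (`K` algebraically closed, finite type).
* `stratumBound_abstract` : the wiring for abstract places / classes.
* `exists_stratumBound_of_geomCore` : for `G : GeomCore N` and a good affine open `U`,
  `∃ C C', NorthAsm2.StratumBound hx oo t G.height r C C'`.
-/
import Fermat.Agent.MW.NorthB10.Inst
import Fermat.Agent.MW.NorthAsm2c

set_option autoImplicit false
set_option linter.unusedSectionVars false
set_option linter.style.haveILetI false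

universe u

open CategoryTheory AlgebraicGeometry ModularCurve AlgebraicCurve

namespace Fermat.Agent.MW.NorthB10

open Fermat.Agent.MW.AbsHeightDef10 Fermat.Agent.MW.AbsHeightOne10 Fermat.Agent.MW.AffinePoly10
  Fermat.Agent.MW.HM73 Fermat.Agent.MW

section Lift

variable {K : Type u} [Field K] [IsAlgClosed K]

/-- A `K`-point `a` of `A` whose underlying point lies in the range of `σ' : X' ⟶ A` lifts to a
`K`-point of `X'`. -/
theorem exists_Kpoint_lift_of_mem_range {X' A : Scheme.{u}}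
    (g' : X' ⟶ Spec (CommRingCat.of K)) [LocallyOfFiniteType g']
    (f : A ⟶ Spec (CommRingCat.of K)) [LocallyOfFiniteType f]
    (σ' : X' ⟶ A) (hσ' : σ' ≫ f = g')
    (a : Spec (CommRingCat.of K) ⟶ A) (ha : a ≫ f = 𝟙 _)
    (hr : a (IsLocalRing.closedPoint K) ∈ Set.range σ') :
    ∃ v : Spec (CommRingCat.of K) ⟶ X', v ≫ g' = 𝟙 _ ∧ v ≫ σ' = a := by
  have : JacobsonSpace X' := LocallyOfFiniteType.jacobsonSpace g'
  have hcl : IsClosed ({a (IsLocalRing.closedPoint K)} : Set A) := by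
    have := isClosedImmersion_of_comp_eq_id _ _ ha
    have h := a.isClosedEmbedding.isClosed_range
    rwa [Set.range_eq_singleton] at h
    exact fun y ↦ congr(a $(Subsingleton.elim _ _))
  obtain ⟨v₁, hv₁⟩ := hr
  have hne : (σ' ⁻¹' {a (IsLocalRing.closedPoint K)}).Nonempty := ⟨v₁, hv₁⟩
  obtain ⟨v₀, hv₀, hv₀cl⟩ := nonempty_inter_closedPoints hne
    (hcl.preimage σ'.continuous).isLocallyClosed
  refine ⟨pointOfClosedPoint g' v₀ hv₀cl, pointOfClosedPoint_comp g' v₀ hv₀cl, ?_⟩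
  refine ext_of_apply_closedPoint_eq f ?_ ha ?_
  · rw [Category.assoc, hσ']
    exact pointOfClosedPoint_comp g' v₀ hv₀cl
  · have h := pointOfClosedPoint_apply g' v₀ hv₀cl (IsLocalRing.closedPoint K)
    have h2 : (pointOfClosedPoint g' v₀ hv₀cl ≫ σ') (IsLocalRing.closedPoint K) =
        σ' (pointOfClosedPoint g' v₀ hv₀cl (IsLocalRing.closedPoint K)) := rfl
    rw [h2, h]
    exact hv₀

end Lift

section Abstract

variable {Ω : Type u} [Field Ω] [IsAlgClosed Ω] [CharZero Ω] [Algebra.IsAlgebraic ℚ Ω]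
  {V : Scheme.{u}} [IsIntegral V] (f : V ⟶ Spec (CommRingCat.of Ω)) [LocallyOfFiniteType f]
  {ι : Type*} [Finite ι] (s : ι → V.functionField)

/-- **Abstract final wiring of NORTH-C(b).**
`Pl` = places, `Cls` = classes, `cls l = [Σ_{P ∈ l} P − |l|·oo]`, `β` the bridge to `Ω`-points of
`V`, `t` the coordinate function on places.  `σ : X ⟶ V` is the stratum map `σ_r`, `σ' : X' ⟶ V`
the previous one (`σ_(r-1)`), `Y` an open whose complement is contained in the range of `σ'`,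
`z j` functions on `X₀ ⊇ σ⁻¹ Y` satisfying the scheme-level bound `hT5` (brick T5).
Dictionary: `hdict` = every `r`-multiset `l` of places `≠ oo` is the set of coordinates of an
`Ω`-point `w` of `X` with `σ w = β (cls l)` and `z_j (w) = t (P_j)`; `hdict'` = every `Ω`-point
of `X'` maps to `β (cls l')` with `|l'| < r`. -/
theorem stratumBound_abstract {Pl Cls : Type*} (cls : Multiset Pl → Cls) (oo : Pl) (t : Pl → Ω)
    (β : Cls → Pt f) (hβ : Function.Injective β) (r : ℕ)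
    {X X' : Scheme.{u}} (σ : X ⟶ V) (σ' : X' ⟶ V)
    (g' : X' ⟶ Spec (CommRingCat.of Ω)) [LocallyOfFiniteType g'] (hσ' : σ' ≫ f = g')
    (Y : V.Opens) (hY : ∀ v : V, v ∉ Y → v ∈ Set.range σ')
    (X₀ : X.Opens) (hX₀ : σ ⁻¹ᵁ Y ≤ X₀) {J : Type*} (z : J → Γ(X, X₀)) (D C : ℝ)
    (hT5 : ∀ (w : Spec (CommRingCat.of Ω) ⟶ X) (hw : (w ≫ σ) ≫ f = 𝟙 _)
      (hwY : (w ≫ σ) (IsLocalRing.closedPoint Ω) ∈ Y) (j : J),
      absLogHeightOne (germVal w X₀ (hX₀ hwY) (z j)) ≤ D * hgt f s ⟨w ≫ σ, hw⟩ + C)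
    (hdict : ∀ l : Multiset Pl, Multiset.card l = r → (∀ P ∈ l, P ≠ oo) →
      ∃ (w : Spec (CommRingCat.of Ω) ⟶ X) (hw : (w ≫ σ) ≫ f = 𝟙 _),
        (⟨w ≫ σ, hw⟩ : Pt f) = β (cls l) ∧
        ∀ (hwX : w (IsLocalRing.closedPoint Ω) ∈ X₀), ∀ P ∈ l, ∃ j,
          germVal w X₀ hwX (z j) = t P)
    (hdict' : ∀ (w' : Spec (CommRingCat.of Ω) ⟶ X') (hw' : (w' ≫ σ') ≫ f = 𝟙 _),
      ∃ l' : Multiset Pl, Multiset.card l' < r ∧ (⟨w' ≫ σ', hw'⟩ : Pt f) = β (cls l')) :
    ∀ l : Multiset Pl, Multiset.card l = r → (∀ P ∈ l, P ≠ oo) →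
      (¬ ∃ l' : Multiset Pl, Multiset.card l' < r ∧ cls l' = cls l) →
      ∀ P ∈ l, absLogHeightOne (t P) ≤ D * hgt f s (β (cls l)) + C := by
  intro l hl hoo hmin P hP
  obtain ⟨w, hw, hβw, hvals⟩ := hdict l hl hoo
  -- `σ w` lies in `Y`
  have hwY : (w ≫ σ) (IsLocalRing.closedPoint Ω) ∈ Y := by
    by_contra hcon
    obtain ⟨w', hw'1, hw'2⟩ := exists_Kpoint_lift_of_mem_range g' f σ' hσ' (w ≫ σ) hw
      (hY _ hcon)
    have hw' : (w' ≫ σ') ≫ f = 𝟙 _ := by rw [hw'2]; exact hw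
    obtain ⟨l', hl', hβl'⟩ := hdict' w' hw'
    apply hmin
    refine ⟨l', hl', hβ ?_⟩
    rw [← hβl', ← hβw]
    exact Subtype.ext hw'2
  obtain ⟨j, hj⟩ := hvals (hX₀ hwY) P hP
  have h := hT5 w hw hwY j
  rw [hj, hβw] at h
  exact h

end Abstract

section Concrete

open Fermat.Agent.MW.NorthAsm2 Fermat.Agent.X0.FF Fermat.Agent.MW.NorthA85

variable {N : ℕ} [NeZero N] (G : GeomCore N)

/-- **NC-B T8 for a core package**: the stratum bound consumed by
`NorthAsm2.hbound_of_strata` / `north_of_strata`, from a good affine open `U` (T5 is applied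
inside) and the point dictionary of the strata `r` (`σ`, `X₀`, `z`) and `r - 1` (`σ'`). -/
theorem exists_stratumBound_of_geomCore (hβ : Function.Injective G.β)
    (U : G.V.Opens) (hU : IsAffineOpen U) [Nonempty U] (hb : HtBounded G.f G.s U)
    {j : modularFunctionFieldBar N} (hx : IsGen QBar j)
    (oo : Place QBar (modularFunctionFieldBar N))
    (t : Place QBar (modularFunctionFieldBar N) → QBar) (r : ℕ)
    {X X' : Scheme.{0}} (σ : X ⟶ G.V) [UniversallyClosed σ] (σ' : X' ⟶ G.V)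
    (g' : X' ⟶ Spec (CommRingCat.of QBar)) [LocallyOfFiniteType g'] (hσ' : σ' ≫ G.f = g')
    (Y : G.V.Opens) (hY : ∀ v : G.V, v ∉ Y → v ∈ Set.range σ')
    (X₀ : X.Opens) (hX₀ : σ ⁻¹ᵁ Y ≤ X₀) {J : Type*} [Finite J] (z : J → Γ(X, X₀))
    (hdict : ∀ l : Multiset (Place QBar (modularFunctionFieldBar N)), Multiset.card l = r →
      (∀ P ∈ l, P ≠ oo) →
      ∃ (w : Spec (CommRingCat.of QBar) ⟶ X) (hw : (w ≫ σ) ≫ G.f = 𝟙 _),
        (⟨w ≫ σ, hw⟩ : Pt G.f) = G.β (pointsClassGen oo hx l) ∧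
        ∀ (hwX : w (IsLocalRing.closedPoint QBar) ∈ X₀), ∀ P ∈ l, ∃ j,
          germVal w X₀ hwX (z j) = t P)
    (hdict' : ∀ (w' : Spec (CommRingCat.of QBar) ⟶ X') (hw' : (w' ≫ σ') ≫ G.f = 𝟙 _),
      ∃ l' : Multiset (Place QBar (modularFunctionFieldBar N)), Multiset.card l' < r ∧
        (⟨w' ≫ σ', hw'⟩ : Pt G.f) = G.β (pointsClassGen oo hx l')) :
    ∃ C C' : ℝ, StratumBound hx oo t G.height r C C' := by
  obtain ⟨D, C, _, hT5⟩ := G.exists_const_of_open_of_finite U hU hb σ Y X₀ hX₀ z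
  refine ⟨D, C, ?_⟩
  intro l hl hoo hmin P hP
  exact stratumBound_abstract G.f G.s (pointsClassGen oo hx) oo t G.β hβ r σ σ' g' hσ' Y hY X₀ hX₀
    z D C hT5 hdict hdict' l hl hoo hmin P hP

end Concrete

end Fermat.Agent.MW.NorthB10
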