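/-
helper10 — programme MW (S17), brick NC-B T8': variants of `NorthB10/Inst.lean` (T5) and
`NorthB10/Wiring.lean` (T8) where each function `z j` lives on its own open `X₀ j ⊇ σ⁻¹ Y`
(the shape of helper32's `NorthB32.zfun X r j t ∈ Γ(pw X r, coord X r j ⁻¹ᵁ Copen X)`).
-/
import Fermat.Agent.MW.NorthB10.Wiring

set_option autoImplicit false
set_option linter.unusedSectionVars false
set_option linter.style.haveILetI false

universe u

open CategoryTheory AlgebraicGeometry ModularCurve AlgebraicCurve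

namespace Fermat.Agent.MW.NorthB10

open Fermat.Agent.MW.AbsHeightDef10 Fermat.Agent.MW.AbsHeightOne10 Fermat.Agent.MW.AffinePoly10
  Fermat.Agent.MW.HM73 Fermat.Agent.MW

section Core

variable {N : ℕ} [NeZero N] (G : GeomCore N)

/-- T5 for finitely many functions, each on its own open. -/
theorem _root_.Fermat.Agent.MW.GeomCore.exists_const_of_open_of_finite' (U : G.V.Opens)
    (hU : IsAffineOpen U) [Nonempty U] (hb : HtBounded G.f G.s U)
    {X : Scheme.{0}} (σ : X ⟶ G.V) [UniversallyClosed σ] (Y : G.V.Opens)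
    {J : Type*} [Finite J] (X₀ : J → X.Opens) (hX₀ : ∀ j, σ ⁻¹ᵁ Y ≤ X₀ j)
    (z : ∀ j, Γ(X, X₀ j)) :
    ∃ D C : ℝ, 0 ≤ D ∧ ∀ (w : Spec (CommRingCat.of QBar) ⟶ X) (hw : (w ≫ σ) ≫ G.f = 𝟙 _)
      (hwY : (w ≫ σ) (IsLocalRing.closedPoint QBar) ∈ Y) (j : J),
      absLogHeightOne (germVal w (X₀ j) (hX₀ j hwY) (z j)) ≤
        D * hgt G.f G.s ⟨w ≫ σ, hw⟩ + C := by
  classical
  cases nonempty_fintype J
  choose D C hD0 hDC using fun j => G.exists_const_of_open U hU hb σ Y (X₀ j) (hX₀ j) (z j)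
  refine ⟨∑ j, D j, ∑ j, |C j|, Finset.sum_nonneg fun j _ => hD0 j, fun w hw hwY j => ?_⟩
  have h1 := hDC j w hw hwY
  have h2 : D j ≤ ∑ j, D j :=
    Finset.single_le_sum (f := D) (fun j _ => hD0 j) (Finset.mem_univ j)
  have h3 : C j ≤ ∑ j, |C j| :=
    le_trans (le_abs_self _) (Finset.single_le_sum (f := fun j => |C j|)
      (fun j _ => abs_nonneg _) (Finset.mem_univ j))
  have h4 : D j * hgt G.f G.s ⟨w ≫ σ, hw⟩ ≤ (∑ j, D j) * hgt G.f G.s ⟨w ≫ σ, hw⟩ :=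
    mul_le_mul_of_nonneg_right h2 (hgt_nonneg _ _ _)
  linarith

end Core

section Abstract

variable {Ω : Type u} [Field Ω] [IsAlgClosed Ω] [CharZero Ω] [Algebra.IsAlgebraic ℚ Ω]
  {V : Scheme.{u}} [IsIntegral V] (f : V ⟶ Spec (CommRingCat.of Ω)) [LocallyOfFiniteType f]
  {ι : Type*} [Finite ι] (s : ι → V.functionField)

/-- `stratumBound_abstract` with one open per function. -/
theorem stratumBound_abstract' {Pl Cls : Type*} (cls : Multiset Pl → Cls) (oo : Pl) (t : Pl → Ω)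
    (β : Cls → Pt f) (hβ : Function.Injective β) (r : ℕ)
    {X X' : Scheme.{u}} (σ : X ⟶ V) (σ' : X' ⟶ V)
    (g' : X' ⟶ Spec (CommRingCat.of Ω)) [LocallyOfFiniteType g'] (hσ' : σ' ≫ f = g')
    (Y : V.Opens) (hY : ∀ v : V, v ∉ Y → v ∈ Set.range σ')
    {J : Type*} (X₀ : J → X.Opens) (hX₀ : ∀ j, σ ⁻¹ᵁ Y ≤ X₀ j) (z : ∀ j, Γ(X, X₀ j)) (D C : ℝ)
    (hT5 : ∀ (w : Spec (CommRingCat.of Ω) ⟶ X) (hw : (w ≫ σ) ≫ f = 𝟙 _)
      (hwY : (w ≫ σ) (IsLocalRing.closedPoint Ω) ∈ Y) (j : J),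
      absLogHeightOne (germVal w (X₀ j) (hX₀ j hwY) (z j)) ≤ D * hgt f s ⟨w ≫ σ, hw⟩ + C)
    (hdict : ∀ l : Multiset Pl, Multiset.card l = r → (∀ P ∈ l, P ≠ oo) →
      ∃ (w : Spec (CommRingCat.of Ω) ⟶ X) (hw : (w ≫ σ) ≫ f = 𝟙 _),
        (⟨w ≫ σ, hw⟩ : Pt f) = β (cls l) ∧
        ∀ P ∈ l, ∃ j, ∀ (hwX : w (IsLocalRing.closedPoint Ω) ∈ X₀ j),
          germVal w (X₀ j) hwX (z j) = t P)
    (hdict' : ∀ (w' : Spec (CommRingCat.of Ω) ⟶ X') (hw' : (w' ≫ σ') ≫ f = 𝟙 _),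
      ∃ l' : Multiset Pl, Multiset.card l' < r ∧ (⟨w' ≫ σ', hw'⟩ : Pt f) = β (cls l')) :
    ∀ l : Multiset Pl, Multiset.card l = r → (∀ P ∈ l, P ≠ oo) →
      (¬ ∃ l' : Multiset Pl, Multiset.card l' < r ∧ cls l' = cls l) →
      ∀ P ∈ l, absLogHeightOne (t P) ≤ D * hgt f s (β (cls l)) + C := by
  intro l hl hoo hmin P hP
  obtain ⟨w, hw, hβw, hvals⟩ := hdict l hl hoo
  have hwY : (w ≫ σ) (IsLocalRing.closedPoint Ω) ∈ Y := by
    by_contra hcon
    obtain ⟨w', hw'1, hw'2⟩ := exists_Kpoint_lift_of_mem_range g' f σ' hσ' (w ≫ σ) hw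
      (hY _ hcon)
    have hw' : (w' ≫ σ') ≫ f = 𝟙 _ := by rw [hw'2]; exact hw
    obtain ⟨l', hl', hβl'⟩ := hdict' w' hw'
    apply hmin
    refine ⟨l', hl', hβ ?_⟩
    rw [← hβl', ← hβw]
    exact Subtype.ext hw'2
  obtain ⟨j, hj⟩ := hvals P hP
  have h := hT5 w hw hwY j
  rw [hj (hX₀ j hwY), hβw] at h
  exact h

end Abstract

section Concrete

open Fermat.Agent.MW.NorthAsm2 Fermat.Agent.X0.FF Fermat.Agent.MW.NorthA85

variable {N : ℕ} [NeZero N] (G : GeomCore N)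

/-- `exists_stratumBound_of_geomCore` with one open per function. -/
theorem exists_stratumBound_of_geomCore' (hβ : Function.Injective G.β)
    (U : G.V.Opens) (hU : IsAffineOpen U) [Nonempty U] (hb : HtBounded G.f G.s U)
    {j : modularFunctionFieldBar N} (hx : IsGen QBar j)
    (oo : Place QBar (modularFunctionFieldBar N))
    (t : Place QBar (modularFunctionFieldBar N) → QBar) (r : ℕ)
    {X X' : Scheme.{0}} (σ : X ⟶ G.V) [UniversallyClosed σ] (σ' : X' ⟶ G.V)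
    (g' : X' ⟶ Spec (CommRingCat.of QBar)) [LocallyOfFiniteType g'] (hσ' : σ' ≫ G.f = g')
    (Y : G.V.Opens) (hY : ∀ v : G.V, v ∉ Y → v ∈ Set.range σ')
    {J : Type*} [Finite J] (X₀ : J → X.Opens) (hX₀ : ∀ j, σ ⁻¹ᵁ Y ≤ X₀ j)
    (z : ∀ j, Γ(X, X₀ j))
    (hdict : ∀ l : Multiset (Place QBar (modularFunctionFieldBar N)), Multiset.card l = r →
      (∀ P ∈ l, P ≠ oo) →
      ∃ (w : Spec (CommRingCat.of QBar) ⟶ X) (hw : (w ≫ σ) ≫ G.f = 𝟙 _),
        (⟨w ≫ σ, hw⟩ : Pt G.f) = G.β (pointsClassGen oo hx l) ∧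
        ∀ P ∈ l, ∃ j, ∀ (hwX : w (IsLocalRing.closedPoint QBar) ∈ X₀ j),
          germVal w (X₀ j) hwX (z j) = t P)
    (hdict' : ∀ (w' : Spec (CommRingCat.of QBar) ⟶ X') (hw' : (w' ≫ σ') ≫ G.f = 𝟙 _),
      ∃ l' : Multiset (Place QBar (modularFunctionFieldBar N)), Multiset.card l' < r ∧
        (⟨w' ≫ σ', hw'⟩ : Pt G.f) = G.β (pointsClassGen oo hx l')) :
    ∃ C C' : ℝ, StratumBound hx oo t G.height r C C' := by
  obtain ⟨D, C, _, hT5⟩ := G.exists_const_of_open_of_finite' U hU hb σ Y X₀ hX₀ z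
  refine ⟨D, C, ?_⟩
  intro l hl hoo hmin P hP
  exact stratumBound_abstract' G.f G.s (pointsClassGen oo hx) oo t G.β hβ r σ σ' g' hσ' Y hY X₀
    hX₀ z D C hT5 hdict hdict' l hl hoo hmin P hP

/-- The stratum `r = 0` is empty. -/
theorem stratumBound_zero {j : modularFunctionFieldBar N} (hx : IsGen QBar j)
    (oo : Place QBar (modularFunctionFieldBar N))
    (t : Place QBar (modularFunctionFieldBar N) → QBar) (h : JZero N → ℝ) :
    StratumBound hx oo t h 0 0 0 := by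
  intro l hl _ _ P hP
  rw [Multiset.card_eq_zero] at hl
  subst hl
  exact absurd hP (Multiset.notMem_zero P)

end Concrete

end Fermat.Agent.MW.NorthB10
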